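/-
GATE-L / UNRAM-BASE (helper26).  The inertia field `K₀ = ℚ̄^{I_A}` of a valuation subring `A | q` of
`ℚ̄` is "unramified with algebraically closed residue field":

* (U1) `exists_zpow_unit_of_fixed` : `x ∈ K₀ˣ ⟹ ∃ n : ℤ, x / qⁿ ∈ Aˣ`  (value group `ℤ·v(q)`);
* (U2) `exists_rootOfUnity_sub_mem_nonunits` : every unit of `A` is congruent mod `𝔪_A` to a root
  of unity of order prime to `q`, and these lie in `K₀` (`rootOfUnity_mem_inertiaField`): the residue
  field of `A ∩ K₀` is the residue field of `A`;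
* (U3) `isClosed_inertiaSubgroupIn`, `fixingSubgroup_inertiaField` : `Gal(ℚ̄/K₀) = I_A`;
* `isDiscreteValuationRing_baseRing` : `R = A ∩ K₀` is a DVR with uniformiser `q`.

Proof of (U1): at a finite Galois level `K/ℚ` the inertia group `I_A` surjects onto the inertia
group `I_P` (`S13.Global.exists_mul_mem_inertia`), `e(P | P ∩ K^{I_P}) = e(P | q)` by counting
inertia groups (Mathlib `card_inertia_eq_ramificationIdxIn`), and valuations are compared by
`valuation_liesOver`.
-/
import Mathlib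
import Fermat.Agent.S13.Global
import Fermat.Agent.S05.Inertia

set_option autoImplicit false

open scoped Pointwise NumberField
open IsDedekindDomain Polynomial
open Fermat.Agent.Common_helper32 Fermat.Agent.S13.Global

namespace Fermat.Agent.GL.Local.InertiaField

attribute [local instance] topZb discreteTopology_Zb continuousSMul_Zb

/-! ### Finite level -/

theorem exists_zpow_exp_neg_one {a : WithZero (Multiplicative ℤ)} (ha : a ≠ 0) :
    ∃ k : ℤ, a = (WithZero.exp (-1 : ℤ)) ^ k := by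
  refine ⟨- WithZero.log a, ?_⟩
  rw [← WithZero.exp_zsmul]
  simp [WithZero.exp_log ha]

theorem int_under_eq_span {R : Type*} [CommRing R] (P : Ideal R) [P.IsPrime] {q : ℕ} (hq : q.Prime)
    (hqP : ((q : ℤ) : R) ∈ P) : P.under ℤ = Ideal.span {(q : ℤ)} := by
  have hmax : (Ideal.span {(q : ℤ)}).IsMaximal :=
    PrincipalIdealRing.isMaximal_of_irreducible (Nat.prime_iff_prime_int.mp hq).irreducible
  have hle : Ideal.span {(q : ℤ)} ≤ P.under ℤ := by
    rw [Ideal.span_singleton_le_iff_mem, Ideal.under_def, Ideal.mem_comap]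
    simpa using hqP
  exact (hmax.eq_of_le (Ideal.IsPrime.ne_top inferInstance) hle).symm

section FiniteLevel

variable {K : Type*} [Field K] [NumberField K]

theorem card_inertia_fixedField (P : Ideal (𝓞 K)) [P.IsPrime] :
    Nat.card (P.inertia (K ≃ₐ[IntermediateField.fixedField (P.inertia Gal(K/ℚ))] K)) =
      Nat.card (P.inertia Gal(K/ℚ)) := by
  set I := P.inertia Gal(K/ℚ) with hI
  set E := IntermediateField.fixedField I with hE
  have hfix : E.fixingSubgroup = I := IntermediateField.fixingSubgroup_fixedField I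
  let e : E.fixingSubgroup ≃* (K ≃ₐ[E] K) := IntermediateField.fixingSubgroupEquiv E
  have he : ∀ (m : E.fixingSubgroup) (x : 𝓞 K), (e m) • x = m • x := by
    intro m x
    rfl
  have h1 := Nat.card_congr (Ideal.inertiaEquiv P e he).toEquiv
  rw [← h1]
  have h2 : P.inertia E.fixingSubgroup = ⊤ := by
    rw [eq_top_iff]
    intro m _
    have hm : (m : Gal(K/ℚ)) ∈ I := hfix ▸ m.2
    exact hm
  rw [h2, Subgroup.card_top, hfix]

variable [IsGalois ℚ K]

theorem ramificationIdx_fixedField (P : Ideal (𝓞 K)) [P.IsPrime] :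
    P.ramificationIdx (𝓞 (IntermediateField.fixedField (P.inertia Gal(K/ℚ)))) =
      P.ramificationIdx ℤ := by
  set E := IntermediateField.fixedField (P.inertia Gal(K/ℚ)) with hE
  have h1 := Ideal.card_inertia_eq_ramificationIdxIn (G := Gal(K/ℚ)) (P.under ℤ) P
  have h2 := Ideal.card_inertia_eq_ramificationIdxIn (G := K ≃ₐ[E] K) (P.under (𝓞 E)) P
  rw [Ideal.ramificationIdxIn_eq_ramificationIdx (P.under ℤ) P Gal(K/ℚ)] at h1
  rw [Ideal.ramificationIdxIn_eq_ramificationIdx (P.under (𝓞 E)) P (K ≃ₐ[E] K)] at h2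
  rw [← h1, ← h2]
  exact card_inertia_fixedField P

/-- Finite level: on the inertia field the `P`-adic valuation takes values in the powers of the
value of the rational prime below. -/
theorem exists_valuation_eq_zpow (w : HeightOneSpectrum (𝓞 K)) {q : ℕ} (hq : q.Prime)
    (hqP : ((q : ℤ) : 𝓞 K) ∈ w.asIdeal) {y : K}
    (hy : y ∈ IntermediateField.fixedField (w.asIdeal.inertia Gal(K/ℚ))) (hy0 : y ≠ 0) :
    ∃ n : ℤ, w.valuation K y = (w.valuation K (q : K)) ^ n := by
  set P := w.asIdeal with hPdef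
  set E := IntermediateField.fixedField (P.inertia Gal(K/ℚ)) with hE
  have hP : P ≠ ⊥ := w.ne_bot
  have h𝔭 : (P.under ℤ) ≠ ⊥ := fun h0 => hP (Ideal.eq_bot_of_comap_eq_bot h0)
  have h𝔭E : (P.under (𝓞 E)) ≠ ⊥ := fun h0 => hP (Ideal.eq_bot_of_comap_eq_bot h0)
  let vE : HeightOneSpectrum (𝓞 E) := ⟨P.under (𝓞 E), inferInstance, h𝔭E⟩
  let v0 : HeightOneSpectrum ℤ := ⟨P.under ℤ, inferInstance, h𝔭⟩
  have : w.asIdeal.LiesOver vE.asIdeal := ⟨rfl⟩
  have : w.asIdeal.LiesOver v0.asIdeal := ⟨rfl⟩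
  have hE1 := HeightOneSpectrum.valuation_liesOver (K := E) K vE w ⟨y, hy⟩
  have h01 := HeightOneSpectrum.valuation_liesOver (K := ℚ) K v0 w (q : ℚ)
  have heE : vE.asIdeal.ramificationIdx' w.asIdeal = P.ramificationIdx (𝓞 E) :=
    Ideal.ramificationIdx'_eq_ramificationIdx (p := vE.asIdeal) (q := w.asIdeal) h𝔭E
  have he0 : v0.asIdeal.ramificationIdx' w.asIdeal = P.ramificationIdx ℤ :=
    Ideal.ramificationIdx'_eq_ramificationIdx (p := v0.asIdeal) (q := w.asIdeal) h𝔭
  rw [heE, ramificationIdx_fixedField P] at hE1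
  rw [he0] at h01
  have hy0' : (⟨y, hy⟩ : E) ≠ 0 := fun h => hy0 (congrArg Subtype.val h)
  have hne : vE.valuation E ⟨y, hy⟩ ≠ 0 := (Valuation.ne_zero_iff _).mpr hy0'
  obtain ⟨k, hk⟩ := exists_zpow_exp_neg_one hne
  have hv0 : v0.valuation ℚ (q : ℚ) = WithZero.exp (-1 : ℤ) := by
    have h1 : ((q : ℚ)) = algebraMap ℤ ℚ (q : ℤ) := by simp
    rw [h1, HeightOneSpectrum.valuation_of_algebraMap]
    exact HeightOneSpectrum.intValuation_singleton v0 (by exact_mod_cast hq.ne_zero)
      (int_under_eq_span P hq hqP)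
  refine ⟨k, ?_⟩
  have h2 : algebraMap E K ⟨y, hy⟩ = y := rfl
  have h3 : algebraMap ℚ K (q : ℚ) = (q : K) := by simp
  rw [h2] at hE1
  rw [h3, hv0] at h01
  rw [← hE1, ← h01, hk, ← zpow_natCast, ← zpow_natCast, ← zpow_mul, ← zpow_mul, mul_comm]

end FiniteLevel

section FiniteLevel

variable {K : Type*} [Field K] [NumberField K]

theorem exists_primeCompl_mul_eq_of_valuation_eq (w : HeightOneSpectrum (𝓞 K)) {y c : K} (hc : c ≠ 0)
    {n : ℤ} (h : w.valuation K y = (w.valuation K c) ^ n) :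
    ∃ a d : 𝓞 K, a ∉ w.asIdeal ∧ d ∉ w.asIdeal ∧ y * (d : K) = c ^ n * (a : K) := by
  have hc' : w.valuation K c ≠ 0 := (Valuation.ne_zero_iff _).mpr hc
  have hz : w.valuation K (y / c ^ n) = 1 := by
    rw [map_div₀, map_zpow₀, h, div_self (zpow_ne_zero _ hc')]
  obtain ⟨a, d, hd⟩ := HeightOneSpectrum.exists_primeCompl_mul_eq_of_integer w (y / c ^ n) hz.le
  have hd1 : w.valuation K (algebraMap (𝓞 K) K d) = 1 :=
    (HeightOneSpectrum.valuation_eq_one_iff_notMem w).mpr d.2
  have ha1 : w.valuation K (algebraMap (𝓞 K) K a) = 1 := by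
    rw [← hd, map_mul, hz, hd1, one_mul]
  refine ⟨a, d, (HeightOneSpectrum.valuation_eq_one_iff_notMem w).mp ha1, d.2, ?_⟩
  have hcn : c ^ n ≠ 0 := zpow_ne_zero _ hc
  have h1 : y / c ^ n * ((d : 𝓞 K) : K) = (a : K) := hd
  rw [div_mul_eq_mul_div, div_eq_iff hcn] at h1
  rw [h1, mul_comm]

end FiniteLevel


/-! ### The inertia group and the inertia field -/

/-- Every element of `ℚ̄` is fixed by an open normal subgroup of `G_ℚ`. -/
theorem exists_open_normal_fixing (x : Qb) :
    ∃ H : Subgroup GQ, H.Normal ∧ IsOpen (H : Set GQ) ∧ ∀ g ∈ H, g x = x := by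
  have hint : IsIntegral ℚ x := Algebra.IsIntegral.isIntegral x
  set p := minpoly ℚ x with hp
  have hsplit : (p.map (algebraMap ℚ Qb)).Splits := IsAlgClosed.splits _
  let N : IntermediateField ℚ Qb := IntermediateField.adjoin ℚ (p.rootSet Qb)
  have h1 : p.IsSplittingField ℚ N := IntermediateField.adjoin_rootSet_isSplittingField hsplit
  have h2 : FiniteDimensional ℚ N := Polynomial.IsSplittingField.finiteDimensional N p
  have h3 : IsGalois ℚ N :=
    IsGalois.of_separable_splitting_field (p := p) (minpoly.irreducible hint).separable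
  have hxN : x ∈ N := by
    apply IntermediateField.subset_adjoin
    rw [Polynomial.mem_rootSet]
    exact ⟨minpoly.ne_zero hint, minpoly.aeval ℚ x⟩
  refine ⟨N.fixingSubgroup, ?_, IntermediateField.fixingSubgroup_isOpen N, ?_⟩
  · exact (InfiniteGalois.normal_iff_isGalois N).mpr h3
  · intro g hg
    exact (IntermediateField.mem_fixingSubgroup_iff N g).mp hg x hxN


/-- Evaluation at a point of `ℚ̄` is locally constant on `G_ℚ`. -/
theorem isOpen_setOf_apply_mem (x : Qb) (S : Set Qb) : IsOpen {σ : GQ | σ x ∈ S} := by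
  rw [isOpen_iff_forall_mem_open]
  intro σ hσ
  refine ⟨(fun τ => σ⁻¹ * τ) ⁻¹' (MulAction.stabilizer GQ x : Set GQ), ?_, ?_, ?_⟩
  · intro τ hτ
    simp only [Set.mem_preimage, SetLike.mem_coe, MulAction.mem_stabilizer_iff] at hτ
    have h1 : τ x = σ x := by
      have h2 : (σ⁻¹ * τ) x = x := hτ
      have h3 := congrArg σ h2
      simpa using h3
    show τ x ∈ S
    rw [h1]
    exact hσ
  · exact (stabilizer_isOpen_of_isIntegral (K := ℚ) x).preimage (continuous_const_mul σ⁻¹)
  · simp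

theorem isClosed_setOf_apply_mem (x : Qb) (S : Set Qb) : IsClosed {σ : GQ | σ x ∈ S} := by
  rw [← isOpen_compl_iff]
  exact isOpen_setOf_apply_mem x Sᶜ

variable (A : ValuationSubring Qb)

/-- characterisation of the inertia group by its action on `A`. -/
theorem mem_inertiaSubgroupIn_iff_forall (σ : GQ) :
    σ ∈ A.inertiaSubgroupIn ℚ ↔
      (∀ x : Qb, σ x ∈ A ↔ x ∈ A) ∧ ∀ x ∈ A, σ x - x ∈ A.nonunits := by
  constructor
  · intro hσ
    exact ⟨fun x => Fermat.Agent.S05.apply_mem_iff_of_mem_inertiaSubgroupIn hσ x,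
      fun x hx => Fermat.Agent.S05.apply_sub_mem_nonunits_of_mem_inertiaSubgroupIn hσ hx⟩
  · rintro ⟨h1, h2⟩
    have hdec : σ ∈ A.decompositionSubgroup ℚ := by
      show σ • A = A
      ext x
      rw [ValuationSubring.mem_pointwise_smul_iff_inv_smul_mem]
      have h3 := h1 (σ⁻¹ • x)
      have h4 : σ (σ⁻¹ • x) = x := by
        show σ (σ⁻¹ x) = x
        simp
      rw [h4] at h3
      exact h3.symm
    refine ⟨⟨σ, hdec⟩, ?_, rfl⟩
    show (⟨σ, hdec⟩ : A.decompositionSubgroup ℚ) ∈ A.inertiaSubgroup ℚ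
    rw [ValuationSubring.inertiaSubgroup, MonoidHom.mem_ker]
    ext x
    obtain ⟨a, rfl⟩ := IsLocalRing.residue_surjective x
    show (⟨σ, hdec⟩ : A.decompositionSubgroup ℚ) • IsLocalRing.residue A a = IsLocalRing.residue A a
    rw [← IsLocalRing.ResidueField.residue_smul, ← sub_eq_zero, ← map_sub,
      IsLocalRing.residue_eq_zero_iff, A.valuation_lt_one_iff]
    show A.valuation (σ • (a : Qb) - (a : Qb)) < 1
    exact (A.mem_nonunits_iff).mp (h2 a a.2)

/-- The inertia group is closed in `G_ℚ`. -/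
theorem isClosed_inertiaSubgroupIn : IsClosed ((A.inertiaSubgroupIn ℚ : Subgroup GQ) : Set GQ) := by
  have h : ((A.inertiaSubgroupIn ℚ : Subgroup GQ) : Set GQ) =
      (⋂ x : Qb, {σ : GQ | σ x ∈
        {y : Qb | (y ∈ A ↔ x ∈ A) ∧ (x ∈ A → y - x ∈ A.nonunits)}}) := by
    ext σ
    simp only [SetLike.mem_coe, Set.mem_iInter, Set.mem_ofPred_eq]
    rw [mem_inertiaSubgroupIn_iff_forall]
    constructor
    · rintro ⟨h1, h2⟩ x
      exact ⟨h1 x, h2 x⟩
    · intro h
      exact ⟨fun x => (h x).1, fun x hx => (h x).2 hx⟩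
  rw [h]
  exact isClosed_iInter fun x => isClosed_setOf_apply_mem x _

/-- The inertia field `K₀ = ℚ̄^{I_A}`. -/
noncomputable def inertiaField : IntermediateField ℚ Qb :=
  IntermediateField.fixedField (A.inertiaSubgroupIn ℚ)

theorem mem_inertiaField_iff (x : Qb) :
    x ∈ inertiaField A ↔ ∀ σ ∈ A.inertiaSubgroupIn ℚ, σ x = x := by
  constructor
  · intro hx σ hσ
    exact hx ⟨σ, hσ⟩
  · intro hx σ
    exact hx σ.1 σ.2

/-- **(U3)** `Gal(ℚ̄/K₀) = I_A`. -/
theorem fixingSubgroup_inertiaField :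
    (inertiaField A).fixingSubgroup = A.inertiaSubgroupIn ℚ :=
  InfiniteGalois.fixingSubgroup_fixedField ⟨A.inertiaSubgroupIn ℚ, isClosed_inertiaSubgroupIn A⟩


/-! ### (U1): the value group of the inertia field -/

section Main

variable (A : ValuationSubring Qb) {q : ℕ} (hq : q.Prime) (hA : (q : Qb) ∈ A.nonunits)

/-- integers of a subfield outside the centre are units of `A`. -/
theorem mem_and_inv_mem_of_notMem_center (K : IntermediateField ℚ Qb) (a : 𝓞 K)
    (ha : a ∉ (centerIdeal A).comap (toZb K)) :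
    ((a : K) : Qb) ∈ A ∧ ((a : K) : Qb)⁻¹ ∈ A := by
  have hmem : ((a : K) : Qb) ∈ A := isIntegral_mem_valuationSubring A _ (toZb K a).2
  refine ⟨hmem, ?_⟩
  rw [Ideal.mem_comap, mem_centerIdeal, A.mem_nonunits_iff, not_lt] at ha
  have h1 : A.valuation ((a : K) : Qb) = 1 :=
    le_antisymm ((A.valuation_le_one_iff _).mpr hmem) ha
  rw [← A.valuation_le_one_iff, map_inv₀, h1, inv_one]

include hq hA in
/-- elements fixed by the inertia group of `A` lie in the inertia field at every finite Galois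
level. -/
theorem mem_fixedField_inertia_of_fixed (H : Subgroup GQ) (hn : H.Normal)
    (hopen : IsOpen (H : Set GQ))
    [NumberField (IntermediateField.fixedField H)] [IsGalois ℚ (IntermediateField.fixedField H)]
    (x : Qb) (hxK : x ∈ IntermediateField.fixedField H)
    (hx : ∀ σ ∈ A.inertiaSubgroupIn ℚ, σ x = x) :
    (⟨x, hxK⟩ : IntermediateField.fixedField H) ∈ IntermediateField.fixedField
      (((centerIdeal A).comap (toZb (IntermediateField.fixedField H))).inertia
        Gal(IntermediateField.fixedField H/ℚ)) := by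
  have hclosed : IsClosed (H : Set GQ) := Subgroup.isClosed_of_isOpen H hopen
  rintro ⟨τ, hτ⟩
  obtain ⟨σ₀, rfl⟩ := AlgEquiv.restrictNormalHom_surjective Qb τ
  have key : ∀ z : Zb, (∀ g ∈ H, g • z = z) → σ₀ • z - z ∈ centerIdeal A := by
    intro z hz
    have hzK : (z : Qb) ∈ IntermediateField.fixedField H :=
      fun g => congrArg Subtype.val (hz g.1 g.2)
    have hint : IsIntegral ℤ (⟨(z : Qb), hzK⟩ : IntermediateField.fixedField H) := by
      rw [← isIntegral_algebraMap_iff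
        (algebraMap (IntermediateField.fixedField H) Qb).injective]
      exact z.2
    let y : 𝓞 (IntermediateField.fixedField H) := ⟨⟨(z : Qb), hzK⟩, hint⟩
    have hy : toZb (IntermediateField.fixedField H) y = z := Subtype.ext rfl
    have h2 : AlgEquiv.restrictNormalHom (IntermediateField.fixedField H) σ₀ • y - y ∈
        (centerIdeal A).comap (toZb (IntermediateField.fixedField H)) := hτ y
    have h3 : toZb (IntermediateField.fixedField H)
        (AlgEquiv.restrictNormalHom (IntermediateField.fixedField H) σ₀ • y) = σ₀ • z := by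
      apply Subtype.ext
      show algebraMap (IntermediateField.fixedField H) Qb
        ((AlgEquiv.restrictNormalHom (IntermediateField.fixedField H) σ₀) (y : _)) = σ₀ (z : Qb)
      exact AlgEquiv.restrictNormal_commutes σ₀ (IntermediateField.fixedField H) _
    rw [Ideal.mem_comap, map_sub, h3, hy] at h2
    exact h2
  obtain ⟨h, hh, hmem⟩ := exists_mul_mem_inertia H hn hclosed A q hq hA σ₀ key
  have h1 : (h * σ₀) x = x := hx _ hmem
  have h2 : σ₀ x = ((AlgEquiv.restrictNormalHom (IntermediateField.fixedField H) σ₀)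
      (⟨x, hxK⟩ : IntermediateField.fixedField H) : Qb) :=
    (AlgEquiv.restrictNormal_commutes σ₀ (IntermediateField.fixedField H) ⟨x, hxK⟩).symm
  have h3 : h (σ₀ x) = σ₀ x := by
    rw [h2]
    exact ((AlgEquiv.restrictNormalHom (IntermediateField.fixedField H) σ₀)
      (⟨x, hxK⟩ : IntermediateField.fixedField H)).2 ⟨h, hh⟩
  have h4 : σ₀ x = x := by
    rw [← h3]
    exact h1
  apply Subtype.ext
  show (((AlgEquiv.restrictNormalHom (IntermediateField.fixedField H) σ₀)
      (⟨x, hxK⟩ : IntermediateField.fixedField H) : IntermediateField.fixedField H) : Qb) = x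
  rw [← h2, h4]

include hq hA in
/-- **(U1)** an element of `ℚ̄ˣ` fixed by the inertia group of `A | q` is `qⁿ` times a unit of
`A`: the inertia field has value group `ℤ·v(q)`. -/
theorem exists_zpow_unit_of_fixed (x : Qb) (hx0 : x ≠ 0)
    (hx : ∀ σ ∈ A.inertiaSubgroupIn ℚ, σ x = x) :
    ∃ n : ℤ, x / (q : Qb) ^ n ∈ A ∧ (x / (q : Qb) ^ n)⁻¹ ∈ A := by
  obtain ⟨H, hn, hopen, hHx⟩ := exists_open_normal_fixing x
  have hfd : FiniteDimensional ℚ (IntermediateField.fixedField H) :=
    finiteDimensional_fixedField H hopen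
  have hgal : IsGalois ℚ (IntermediateField.fixedField H) := isGalois_fixedField H hn hopen
  have hnf : NumberField (IntermediateField.fixedField H) :=
    { to_charZero := inferInstance, to_finiteDimensional := hfd }
  have hxK : x ∈ IntermediateField.fixedField H := fun g => hHx g.1 g.2
  let P : Ideal (𝓞 (IntermediateField.fixedField H)) :=
    (centerIdeal A).comap (toZb (IntermediateField.fixedField H))
  have hPprime : P.IsPrime := Ideal.comap_isPrime _ _
  have hqP : ((q : ℤ) : 𝓞 (IntermediateField.fixedField H)) ∈ P := by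
    rw [Ideal.mem_comap, mem_centerIdeal, map_intCast]
    simpa using hA
  have hP0 : P ≠ ⊥ := by
    intro h0
    rw [h0, Ideal.mem_bot] at hqP
    have : (q : ℤ) = 0 := by exact_mod_cast hqP
    exact hq.ne_zero (by exact_mod_cast this)
  let w : HeightOneSpectrum (𝓞 (IntermediateField.fixedField H)) := ⟨P, hPprime, hP0⟩
  have hxE := mem_fixedField_inertia_of_fixed A hq hA H hn hopen x hxK hx
  have hy0 : (⟨x, hxK⟩ : IntermediateField.fixedField H) ≠ 0 :=
    fun h => hx0 (congrArg Subtype.val h)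
  obtain ⟨n, hn'⟩ := exists_valuation_eq_zpow w hq hqP hxE hy0
  have hq0 : ((q : ℕ) : IntermediateField.fixedField H) ≠ 0 := by
    exact_mod_cast hq.ne_zero
  obtain ⟨a, d, ha, hd, hmul⟩ := exists_primeCompl_mul_eq_of_valuation_eq w hq0 hn'
  obtain ⟨ha1, ha2⟩ := mem_and_inv_mem_of_notMem_center A _ a ha
  obtain ⟨hd1, hd2⟩ := mem_and_inv_mem_of_notMem_center A _ d hd
  have hcoe : (((q : ℕ) : IntermediateField.fixedField H) ^ n : IntermediateField.fixedField H) =
      ((q : Qb) ^ n : Qb) := by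
    have h := map_zpow₀ (algebraMap (IntermediateField.fixedField H) Qb)
      ((q : ℕ) : IntermediateField.fixedField H) n
    rw [map_natCast] at h
    exact h
  have hmul' : x * ((d : IntermediateField.fixedField H) : Qb) =
      (q : Qb) ^ n * ((a : IntermediateField.fixedField H) : Qb) := by
    have := congrArg (Subtype.val : IntermediateField.fixedField H → Qb) hmul
    rw [← hcoe]
    exact this
  have hd0 : ((d : IntermediateField.fixedField H) : Qb) ≠ 0 := by
    intro h0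
    apply hd
    have h1 : (d : IntermediateField.fixedField H) = 0 := Subtype.ext h0
    have h2 : d = 0 := NumberField.RingOfIntegers.coe_injective (by simpa using h1)
    rw [h2]
    exact Ideal.zero_mem _
  have hqn : (q : Qb) ^ n ≠ 0 := zpow_ne_zero _ (by exact_mod_cast hq.ne_zero)
  have hform : x / (q : Qb) ^ n =
      ((a : IntermediateField.fixedField H) : Qb) * ((d : IntermediateField.fixedField H) : Qb)⁻¹ := by
    rw [div_eq_iff hqn, mul_comm _ ((q : Qb) ^ n), ← mul_assoc, ← hmul', mul_assoc,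
      mul_inv_cancel₀ hd0, mul_one]
  refine ⟨n, ?_, ?_⟩
  · rw [hform]
    exact A.mul_mem _ _ ha1 hd2
  · rw [hform, mul_inv, inv_inv]
    exact A.mul_mem _ _ ha2 hd1

end Main

/-! ### (U2): the residue field of the inertia field -/

section Residue

variable (A : ValuationSubring Qb) {q : ℕ} (hq : q.Prime) (hA : (q : Qb) ∈ A.nonunits)

include hq hA in
/-- an algebraic integer which is a unit of `A` has a power `≡ 1`, of exponent prime to `q`. -/
theorem exists_pow_sub_one_mem_nonunits (s : Qb) (hs : IsIntegral ℤ s) (hsA : s ∉ A.nonunits) :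
    ∃ N : ℕ, 0 < N ∧ ¬ q ∣ N ∧ s ^ N - 1 ∈ A.nonunits := by
  have hsQ : IsIntegral ℚ s := Algebra.IsIntegral.isIntegral s
  let K : IntermediateField ℚ Qb := IntermediateField.adjoin ℚ {s}
  have hfd : FiniteDimensional ℚ K := IntermediateField.adjoin.finiteDimensional hsQ
  have hnf : NumberField K := { to_charZero := inferInstance, to_finiteDimensional := hfd }
  have hsK : s ∈ K := IntermediateField.mem_adjoin_simple_self ℚ s
  have hint : IsIntegral ℤ (⟨s, hsK⟩ : K) := by
    rw [← isIntegral_algebraMap_iff (algebraMap K Qb).injective]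
    exact hs
  let y : 𝓞 K := ⟨⟨s, hsK⟩, hint⟩
  let P : Ideal (𝓞 K) := (centerIdeal A).comap (toZb K)
  have hPprime : P.IsPrime := Ideal.comap_isPrime _ _
  have hqP : ((q : ℤ) : 𝓞 K) ∈ P := by
    rw [Ideal.mem_comap, mem_centerIdeal, map_intCast]
    simpa using hA
  have hP0 : P ≠ ⊥ := by
    intro h0
    rw [h0, Ideal.mem_bot] at hqP
    have : (q : ℤ) = 0 := by exact_mod_cast hqP
    exact hq.ne_zero (by exact_mod_cast this)
  have hmax : P.IsMaximal := hPprime.isMaximal hP0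
  let _ : Field (𝓞 K ⧸ P) := Ideal.Quotient.field P
  have : Finite (𝓞 K ⧸ P) := Ideal.finiteQuotientOfFreeOfNeBot P hP0
  let _ : Fintype (𝓞 K ⧸ P) := Fintype.ofFinite _
  have hchar : CharP (𝓞 K ⧸ P) q := by
    have h0 : ((q : ℕ) : 𝓞 K ⧸ P) = 0 := by
      have : ((q : ℕ) : 𝓞 K ⧸ P) = Ideal.Quotient.mk P ((q : ℤ) : 𝓞 K) := by simp
      rw [this, Ideal.Quotient.eq_zero_iff_mem]
      exact hqP
    have := CharP.ringChar_of_prime_eq_zero hq h0
    exact this ▸ ringChar.charP _
  obtain ⟨n, -, hcard⟩ := FiniteField.card (𝓞 K ⧸ P) q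
  have hy : Ideal.Quotient.mk P y ≠ 0 := by
    rw [Ne, Ideal.Quotient.eq_zero_iff_mem, Ideal.mem_comap, mem_centerIdeal]
    exact hsA
  have hpow := FiniteField.pow_card_sub_one_eq_one (Ideal.Quotient.mk P y) hy
  refine ⟨Fintype.card (𝓞 K ⧸ P) - 1, ?_, ?_, ?_⟩
  · have : 1 < Fintype.card (𝓞 K ⧸ P) := Fintype.one_lt_card
    omega
  · rw [hcard]
    intro hdvd
    have h1 : q ∣ q ^ (n : ℕ) := dvd_pow_self q n.ne_zero
    have h2 : 1 ≤ q ^ (n : ℕ) := Nat.one_le_pow _ _ hq.pos
    have h3 : q ∣ 1 := by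
      have := (Nat.dvd_sub h1 hdvd)
      rwa [Nat.sub_sub_self h2] at this
    exact hq.one_lt.ne' (Nat.dvd_one.mp h3)
  · have h1 : y ^ (Fintype.card (𝓞 K ⧸ P) - 1) - 1 ∈ P := by
      rw [← Ideal.Quotient.eq_zero_iff_mem, map_sub, map_pow, hpow, map_one, sub_self]
    rw [Ideal.mem_comap, mem_centerIdeal, map_sub, map_pow, map_one] at h1
    exact h1

/-- a finite product of elements of `A` lying in the maximal ideal has a factor in it. -/
theorem exists_mem_nonunits_of_prod_mem (m : Multiset Qb) (hm : ∀ a ∈ m, a ∈ A)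
    (hprod : m.prod ∈ A.nonunits) : ∃ a ∈ m, a ∈ A.nonunits := by
  by_contra hcon
  push Not at hcon
  have h1 : ∀ a ∈ m, A.valuation a = 1 := by
    intro a ha
    have h2 := hcon a ha
    rw [A.mem_nonunits_iff, not_lt] at h2
    exact le_antisymm ((A.valuation_le_one_iff _).mpr (hm a ha)) h2
  have h3 : A.valuation m.prod = 1 := by
    rw [map_multiset_prod]
    apply Multiset.prod_eq_one
    intro x hx
    rw [Multiset.mem_map] at hx
    obtain ⟨a, ha, rfl⟩ := hx
    exact h1 a ha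
  rw [A.mem_nonunits_iff, h3] at hprod
  exact lt_irrefl _ hprod

/-- if `s^N ≡ 1` then `s` is congruent to an `N`-th root of unity. -/
theorem exists_root_of_unity_sub_mem_nonunits (s : Qb) (hs : s ∈ A) {N : ℕ} (hN : 0 < N)
    (h : s ^ N - 1 ∈ A.nonunits) : ∃ ζ : Qb, ζ ^ N = 1 ∧ s - ζ ∈ A.nonunits := by
  have hmonic : (X ^ N - 1 : Qb[X]).Monic := monic_X_pow_sub_C 1 hN.ne'
  have hsplit : (X ^ N - 1 : Qb[X]).Splits := IsAlgClosed.splits _
  have hprod := hsplit.eq_prod_roots_of_monic hmonic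
  have heval : s ^ N - 1 = ((X ^ N - 1 : Qb[X]).roots.map (fun ζ => s - ζ)).prod := by
    have h1 := congrArg (Polynomial.eval s) hprod
    rw [eval_sub, eval_pow, eval_X, eval_one, eval_multiset_prod, Multiset.map_map] at h1
    rw [h1]
    congr 1
    apply Multiset.map_congr rfl
    intro ζ _
    simp
  rw [heval] at h
  have hroot : ∀ ζ ∈ (X ^ N - 1 : Qb[X]).roots, ζ ^ N = 1 := by
    intro ζ hζ
    rw [mem_roots (hmonic.ne_zero)] at hζ
    have : ζ ^ N - 1 = 0 := by simpa [IsRoot] using hζ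
    exact sub_eq_zero.mp this
  obtain ⟨a, ha, hanu⟩ := exists_mem_nonunits_of_prod_mem A _ (by
    intro a ha
    rw [Multiset.mem_map] at ha
    obtain ⟨ζ, hζ, rfl⟩ := ha
    have hζint : IsIntegral ℤ ζ := by
      refine ⟨X ^ N - 1, monic_X_pow_sub_C 1 hN.ne', ?_⟩
      simp [hroot ζ hζ]
    exact sub_mem hs (isIntegral_mem_valuationSubring A ζ hζint)) h
  rw [Multiset.mem_map] at ha
  obtain ⟨ζ, hζ, rfl⟩ := ha
  exact ⟨ζ, hroot ζ hζ, hanu⟩

include hq hA in
/-- a root of unity of order prime to `q` which is `≡ 1` is `1`. -/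
theorem rootOfUnity_eq_one_of_sub_one_mem_nonunits {η : Qb} {N : ℕ} (hN : ¬ q ∣ N)
    (hη : η ^ N = 1) (h1 : η - 1 ∈ A.nonunits) : η = 1 := by
  by_contra hne
  have hηA : η ∈ A := by
    have : η = (η - 1) + 1 := by ring
    rw [this]
    exact add_mem (A.nonunits_le h1) A.one_mem
  have hgeom : (∑ i ∈ Finset.range N, η ^ i) * (η - 1) = η ^ N - 1 := geom_sum_mul η N
  rw [hη, sub_self] at hgeom
  have hsum : ∑ i ∈ Finset.range N, η ^ i = 0 := by
    rcases mul_eq_zero.mp hgeom with h | h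
    · exact h
    · exact absurd (sub_eq_zero.mp h) hne
  have hpow : ∀ i : ℕ, η ^ i - 1 ∈ A.nonunits := by
    intro i
    have : η ^ i - 1 = (∑ j ∈ Finset.range i, η ^ j) * (η - 1) := (geom_sum_mul η i).symm
    rw [this, mul_comm]
    exact Fermat.Agent.S05.mul_mem_nonunits_of_mem h1
      (sum_mem fun j _ => pow_mem hηA j)
  have hNnu : (N : Qb) ∈ A.nonunits := by
    have h2 : (N : Qb) = - ∑ i ∈ Finset.range N, (η ^ i - 1) := by
      rw [Finset.sum_sub_distrib, hsum]
      simp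
    rw [h2]
    exact neg_mem (sum_mem fun i _ => hpow i)
  exact hN ((Fermat.Agent.S05.natCast_mem_nonunits_iff hq hA N).mp hNnu)

include hq hA in
/-- roots of unity of order prime to `q` lie in the inertia field. -/
theorem rootOfUnity_mem_inertiaField {ζ : Qb} {N : ℕ} (hN : ¬ q ∣ N) (hζ : ζ ^ N = 1) :
    ζ ∈ inertiaField A := by
  rw [mem_inertiaField_iff]
  intro σ hσ
  have hN0 : N ≠ 0 := fun h => hN (h ▸ dvd_zero q)
  have hζ0 : ζ ≠ 0 := by
    intro h0
    rw [h0, zero_pow hN0] at hζ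
    exact zero_ne_one hζ
  have hζint : IsIntegral ℤ ζ := by
    refine ⟨X ^ N - 1, monic_X_pow_sub_C 1 hN0, ?_⟩
    simp [hζ]
  have hζA : ζ ∈ A := isIntegral_mem_valuationSubring A ζ hζint
  have hζinv : ζ⁻¹ ∈ A := by
    have : ζ⁻¹ = ζ ^ (N - 1) := by
      rw [eq_comm, ← mul_eq_one_iff_eq_inv₀ hζ0, ← pow_succ, Nat.sub_add_cancel (Nat.pos_of_ne_zero hN0), hζ]
    rw [this]
    exact pow_mem hζA _
  have h1 : σ ζ - ζ ∈ A.nonunits :=
    Fermat.Agent.S05.apply_sub_mem_nonunits_of_mem_inertiaSubgroupIn hσ hζA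
  have h2 : σ ζ / ζ - 1 ∈ A.nonunits := by
    have : σ ζ / ζ - 1 = (σ ζ - ζ) * ζ⁻¹ := by
      field_simp
    rw [this]
    exact Fermat.Agent.S05.mul_mem_nonunits_of_mem h1 hζinv
  have h3 : (σ ζ / ζ) ^ N = 1 := by
    rw [div_pow, ← map_pow, hζ, map_one, div_one]
  have h4 := rootOfUnity_eq_one_of_sub_one_mem_nonunits A hq hA hN h3 h2
  rwa [div_eq_one_iff_eq hζ0] at h4

theorem unit_of_pow_eq_one {ζ : Qb} {N : ℕ} (hN : N ≠ 0) (hζ : ζ ^ N = 1) :
    ζ ≠ 0 ∧ ζ ∈ A ∧ ζ⁻¹ ∈ A := by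
  have hζ0 : ζ ≠ 0 := by
    intro h0
    rw [h0, zero_pow hN] at hζ
    exact zero_ne_one hζ
  have hζint : IsIntegral ℤ ζ := by
    refine ⟨X ^ N - 1, monic_X_pow_sub_C 1 hN, ?_⟩
    simp [hζ]
  have hζA : ζ ∈ A := isIntegral_mem_valuationSubring A ζ hζint
  refine ⟨hζ0, hζA, ?_⟩
  have : ζ⁻¹ = ζ ^ (N - 1) := by
    rw [eq_comm, ← mul_eq_one_iff_eq_inv₀ hζ0, ← pow_succ,
      Nat.sub_add_cancel (Nat.pos_of_ne_zero hN), hζ]
  rw [this]
  exact pow_mem hζA _

include hq hA in
/-- **(U2)** the inertia field has the same residue field as `A`: every element of `A` is congruent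
modulo the maximal ideal to `0` or to a root of unity of order prime to `q` (which lies in the
inertia field). -/
theorem exists_rootOfUnity_sub_mem_nonunits (a : Qb) (ha : a ∈ A) (hanu : a ∉ A.nonunits) :
    ∃ (ζ : Qb) (N : ℕ), ¬ q ∣ N ∧ ζ ^ N = 1 ∧ a - ζ ∈ A.nonunits := by
  obtain ⟨s, t, hs, ht, hsA, hst⟩ :=
    exists_integral_fraction A q hq hA a ha (isAlgebraic_int a)
  have hsmem : s ∈ A := isIntegral_mem_valuationSubring A s hs
  have htmem : t ∈ A := isIntegral_mem_valuationSubring A t ht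
  have hvs : A.valuation s = 1 := by
    rw [A.mem_nonunits_iff, not_lt] at hsA
    exact le_antisymm ((A.valuation_le_one_iff _).mpr hsmem) hsA
  have hva : A.valuation a = 1 := by
    rw [A.mem_nonunits_iff, not_lt] at hanu
    exact le_antisymm ((A.valuation_le_one_iff _).mpr ha) hanu
  have htA : t ∉ A.nonunits := by
    rw [A.mem_nonunits_iff, ← hst, map_mul, hvs, hva, one_mul]
    exact lt_irrefl _
  obtain ⟨N₁, hN₁pos, hN₁, hs1⟩ := exists_pow_sub_one_mem_nonunits A hq hA s hs hsA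
  obtain ⟨N₂, hN₂pos, hN₂, ht1⟩ := exists_pow_sub_one_mem_nonunits A hq hA t ht htA
  obtain ⟨ζ₁, hζ₁, hsζ⟩ := exists_root_of_unity_sub_mem_nonunits A s hsmem hN₁pos hs1
  obtain ⟨ζ₂, hζ₂, htζ⟩ := exists_root_of_unity_sub_mem_nonunits A t htmem hN₂pos ht1
  obtain ⟨h10, h1A, h1inv⟩ := unit_of_pow_eq_one A hN₁pos.ne' hζ₁
  obtain ⟨h20, h2A, h2inv⟩ := unit_of_pow_eq_one A hN₂pos.ne' hζ₂
  have hs0 : s ≠ 0 := by
    intro h0
    rw [h0, map_zero] at hvs
    exact zero_ne_one hvs
  have hsinv : s⁻¹ ∈ A := by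
    rw [← A.valuation_le_one_iff, map_inv₀, hvs, inv_one]
  refine ⟨ζ₂ / ζ₁, N₁ * N₂, ?_, ?_, ?_⟩
  · intro hdvd
    rcases (Nat.Prime.dvd_mul hq).mp hdvd with h | h
    · exact hN₁ h
    · exact hN₂ h
  · rw [div_pow, pow_mul' ζ₂, hζ₂, one_pow, pow_mul, hζ₁, one_pow, div_one]
  · have ha_eq : a = t / s := by
      rw [eq_div_iff hs0, mul_comm]
      exact hst
    have hkey : a - ζ₂ / ζ₁ = ((t - ζ₂) * ζ₁ - (s - ζ₁) * ζ₂) * (s⁻¹ * ζ₁⁻¹) := by
      rw [ha_eq]
      field_simp
      ring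
    rw [hkey]
    apply Fermat.Agent.S05.mul_mem_nonunits_of_mem _ (mul_mem hsinv h1inv)
    apply sub_mem
    · exact Fermat.Agent.S05.mul_mem_nonunits_of_mem htζ h1A
    · exact Fermat.Agent.S05.mul_mem_nonunits_of_mem hsζ h2A

end Residue

end Fermat.Agent.GL.Local.InertiaField
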