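import Mathlib

/-!
# GATE-L / (INV-R), algebra lemma (A) (helper84)

`O` a noetherian local domain with fraction field `F`, `x ∈ 𝔪` a nonzero element such that
`(x)` is prime and `O ⧸ (x)` is a valuation ring (e.g. a DVR).  Then every finitely generated
*divisorial* (= reflexive) `O`-submodule `M ⊆ F` is principal.

This is the form in which "every Weil divisor is Cartier at `P`" is consumed in GATE-L:
at a supersingular point `P` of `Spec B_R(q² M')` one has `(g₁) = 𝔭_{C₁}` and
`O_P ⧸ (g₁) = O_{C₁,P}`, a DVR (board 2444 (C)).  No Auslander–Buchsbaum, no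
"regular ⟹ UFD" is needed.

Main statements:

* `DvrQuot.mem_smul_of_smul_mem` : `M ⧸ x M` is torsion-free over `O ⧸ (x)`
  (only uses that `x` is a prime element and that `M` is reflexive);
* `DvrQuot.exists_eq_span_singleton` : `M` is principal;
* `DvrQuot.exists_eq_span_singleton_of_dvr` : the same with
  `[IsDiscreteValuationRing (O ⧸ Ideal.span {x})]`.
-/

set_option autoImplicit false
set_option linter.unusedSectionVars false

open IsLocalRing

namespace Fermat.Agent.GL.DvrQuot

variable {O F : Type*} [CommRing O] [IsDomain O] [Field F] [Algebra O F] [IsFractionRing O F]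

/-- `M` is *divisorial*: `t ∈ M` as soon as `n t ∈ O` for every `n` with `n M ⊆ O`. -/
def IsDivisorial (M : Submodule O F) : Prop :=
  ∀ t : F, (∀ n : F, (∀ f ∈ M, n * f ∈ (algebraMap O F).range) →
    n * t ∈ (algebraMap O F).range) → t ∈ M

theorem algebraMap_injective' : Function.Injective (algebraMap O F) :=
  IsFractionRing.injective O F

/-- **torsion-freeness of `M ⧸ x M` over `O ⧸ (x)`**: if `x` is a prime element, `M` is
divisorial, `s ∉ (x)` and `s • f ∈ x • M` then `f ∈ x • M`. -/
theorem mem_smul_of_smul_mem {x : O} (hx : Prime x) {M : Submodule O F} (hM : IsDivisorial M)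
    {s : O} (hs : ¬ x ∣ s) {f g : F} (hf : f ∈ M) (hg : g ∈ M) (h : s • f = x • g) :
    ∃ t ∈ M, f = x • t := by
  have hx0 : algebraMap O F x ≠ 0 := by
    intro h0
    exact hx.ne_zero ((map_eq_zero_iff _ (IsFractionRing.injective O F)).mp h0)
  refine ⟨(algebraMap O F x)⁻¹ * f, ?_, ?_⟩
  · apply hM
    intro n hn
    obtain ⟨a, ha⟩ := hn f hf
    obtain ⟨b, hb⟩ := hn g hg
    -- `s * a = x * b`
    have hab : s * a = x * b := by
      apply IsFractionRing.injective O F
      rw [map_mul, map_mul, ha, hb]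
      have h1 : algebraMap O F s * f = algebraMap O F x * g := by
        simpa [Algebra.smul_def] using h
      calc algebraMap O F s * (n * f) = n * (algebraMap O F s * f) := by ring
        _ = n * (algebraMap O F x * g) := by rw [h1]
        _ = algebraMap O F x * (n * g) := by ring
    have hdvd : x ∣ s * a := ⟨b, hab⟩
    rcases hx.dvd_or_dvd hdvd with h1 | h1
    · exact absurd h1 hs
    · obtain ⟨a', rfl⟩ := h1
      refine ⟨a', ?_⟩
      have : n * f = algebraMap O F x * algebraMap O F a' := by rw [← ha, map_mul]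
      calc algebraMap O F a' = (algebraMap O F x)⁻¹ * (algebraMap O F x * algebraMap O F a') := by
            field_simp
        _ = (algebraMap O F x)⁻¹ * (n * f) := by rw [this]
        _ = n * ((algebraMap O F x)⁻¹ * f) := by ring
  · rw [Algebra.smul_def, ← mul_assoc, mul_inv_cancel₀ hx0, one_mul]


open Pointwise

section Main

variable [IsLocalRing O] [IsNoetherianRing O]

/-- in a noetherian domain every nonzero `b` is `x ^ i * b'` with `x ∤ b'` (`x` a non-unit). -/
theorem exists_eq_pow_mul_not_dvd {x : O} (hx : ¬ IsUnit x) {b : O} (hb : b ≠ 0) :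
    ∃ (i : ℕ) (b' : O), b = x ^ i * b' ∧ ¬ x ∣ b' := by
  have hfin : FiniteMultiplicity x b := FiniteMultiplicity.of_not_isUnit hx hb
  obtain ⟨c, hc, hc'⟩ := hfin.exists_eq_pow_mul_and_not_dvd
  exact ⟨_, c, hc, hc'⟩

theorem mem_smul_iff {x : O} {M : Submodule O F} {m : F} :
    m ∈ x • M ↔ ∃ t ∈ M, m = x • t := by
  rw [Submodule.mem_smul_pointwise_iff_exists]
  constructor
  · rintro ⟨t, ht, rfl⟩; exact ⟨t, ht, rfl⟩
  · rintro ⟨t, ht, rfl⟩; exact ⟨t, ht, rfl⟩

/-- cancel a power of `x` in `F`. -/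
theorem smul_pow_cancel {x : O} (hx0 : x ≠ 0) (i : ℕ) {u v : F}
    (h : (x ^ i) • u = (x ^ i) • v) : u = v := by
  have h0 : algebraMap O F (x ^ i) ≠ 0 := by
    intro h0
    exact pow_ne_zero i hx0 ((map_eq_zero_iff _ (IsFractionRing.injective O F)).mp h0)
  rw [Algebra.smul_def, Algebra.smul_def] at h
  exact mul_left_cancel₀ h0 h

/-- key step: if `b • g = a • f'` with `g ∉ x M`, then the `x`-adic order of `b` is at most the
one of `a`. -/
theorem order_le {x : O} (hx : Prime x) {M : Submodule O F} (hM : IsDivisorial M)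
    {f' g : F} (hf' : f' ∈ M) (hg : g ∈ M) (hgx : g ∉ x • M)
    {i k : ℕ} {a' b' : O} (hb' : ¬ x ∣ b')
    (h : (x ^ i * b') • g = (x ^ k * a') • f') : k ≤ i := by
  by_contra hlt
  rw [not_le] at hlt
  obtain ⟨e, rfl⟩ : ∃ e, k = i + (e + 1) := ⟨k - i - 1, by omega⟩
  -- `b' • g = x • (x ^ e * a') • f'`
  have h1 : b' • g = x • ((x ^ e * a') • f') := by
    apply smul_pow_cancel hx.ne_zero i
    rw [smul_smul, h, smul_smul, smul_smul]
    congr 1
    ring
  obtain ⟨t, ht, rfl⟩ := mem_smul_of_smul_mem hx hM hb' hg (M.smul_mem _ hf') h1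
  exact hgx (mem_smul_iff.mpr ⟨t, ht, rfl⟩)

/-- two elements of `M` are, modulo `x M`, multiples of one of them. -/
theorem exists_combine {x : O} (hx : Prime x) [IsDomain (O ⧸ Ideal.span {x})]
    [ValuationRing (O ⧸ Ideal.span {x})]
    {M : Submodule O F} (hM : IsDivisorial M) {f' g : F} (hf' : f' ∈ M) (hg : g ∈ M) :
    ∃ f ∈ M, f' ∈ Submodule.span O {f} ⊔ x • M ∧ g ∈ Submodule.span O {f} ⊔ x • M := by
  classical
  by_cases hgx : g ∈ x • M
  · exact ⟨f', hf', Submodule.mem_sup_left (Submodule.mem_span_singleton_self _),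
      Submodule.mem_sup_right hgx⟩
  by_cases hfx : f' ∈ x • M
  · exact ⟨g, hg, Submodule.mem_sup_right hfx,
      Submodule.mem_sup_left (Submodule.mem_span_singleton_self _)⟩
  have hg0 : g ≠ 0 := fun h => hgx (h ▸ (x • M).zero_mem)
  have hf0 : f' ≠ 0 := fun h => hfx (h ▸ (x • M).zero_mem)
  obtain ⟨a, b, hb, hab⟩ := IsFractionRing.div_surjective (A := O) (g / f')
  have hb0 : b ≠ 0 := nonZeroDivisors.ne_zero hb
  have hbF : algebraMap O F b ≠ 0 := fun h0 =>
    hb0 ((map_eq_zero_iff _ (IsFractionRing.injective O F)).mp h0)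
  have hrel : b • g = a • f' := by
    rw [Algebra.smul_def, Algebra.smul_def]
    field_simp at hab
    linear_combination -hab
  have ha0 : a ≠ 0 := by
    rintro rfl
    rw [zero_smul, Algebra.smul_def] at hrel
    exact hg0 ((mul_eq_zero.mp hrel).resolve_left hbF)
  have hxu : ¬ IsUnit x := hx.not_isUnit
  obtain ⟨i, b', rfl, hb'⟩ := exists_eq_pow_mul_not_dvd hxu hb0
  obtain ⟨k, a', rfl, ha'⟩ := exists_eq_pow_mul_not_dvd hxu ha0
  have hki : k ≤ i := order_le hx hM hf' hg hgx hb' hrel
  have hik : i ≤ k := order_le hx hM hg hf' hfx ha' hrel.symm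
  obtain rfl : i = k := le_antisymm hik hki
  have hrel' : b' • g = a' • f' := by
    apply smul_pow_cancel hx.ne_zero i
    rw [smul_smul, smul_smul]
    exact hrel
  obtain ⟨cbar, hc⟩ := ValuationRing.cond (Ideal.Quotient.mk (Ideal.span {x}) a')
    (Ideal.Quotient.mk (Ideal.span {x}) b')
  obtain ⟨c, rfl⟩ := Ideal.Quotient.mk_surjective cbar
  rcases hc with hc | hc
  · -- `b' = a' c + x d`
    rw [← map_mul, Ideal.Quotient.eq, Ideal.mem_span_singleton] at hc
    obtain ⟨d, hd⟩ := hc
    have hbd : b' = a' * c - x * d := by linear_combination -hd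
    -- `a' • (f' - c • g) = x • (-(d • g))`
    have h2 : a' • (f' - c • g) = x • (-(d • g)) := by
      rw [smul_sub, ← hrel', hbd, sub_smul, smul_neg, smul_smul, smul_smul]
      abel
    obtain ⟨t, ht, htt⟩ := mem_smul_of_smul_mem hx hM ha'
      (M.sub_mem hf' (M.smul_mem c hg)) (M.neg_mem (M.smul_mem d hg)) h2
    refine ⟨g, hg, ?_, Submodule.mem_sup_left (Submodule.mem_span_singleton_self _)⟩
    have : f' = c • g + x • t := by rw [← htt]; abel
    rw [this]
    exact Submodule.add_mem_sup (Submodule.smul_mem _ c (Submodule.mem_span_singleton_self _))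
      (mem_smul_iff.mpr ⟨t, ht, rfl⟩)
  · rw [← map_mul, Ideal.Quotient.eq, Ideal.mem_span_singleton] at hc
    obtain ⟨d, hd⟩ := hc
    have had : a' = b' * c - x * d := by linear_combination -hd
    have h2 : b' • (g - c • f') = x • (-(d • f')) := by
      rw [smul_sub, hrel', had, sub_smul, smul_neg, smul_smul, smul_smul]
      abel
    obtain ⟨t, ht, htt⟩ := mem_smul_of_smul_mem hx hM hb'
      (M.sub_mem hg (M.smul_mem c hf')) (M.neg_mem (M.smul_mem d hf')) h2
    refine ⟨f', hf', Submodule.mem_sup_left (Submodule.mem_span_singleton_self _), ?_⟩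
    have : g = c • f' + x • t := by rw [← htt]; abel
    rw [this]
    exact Submodule.add_mem_sup (Submodule.smul_mem _ c (Submodule.mem_span_singleton_self _))
      (mem_smul_iff.mpr ⟨t, ht, rfl⟩)

theorem exists_span_le {x : O} (hx : Prime x) [IsDomain (O ⧸ Ideal.span {x})]
    [ValuationRing (O ⧸ Ideal.span {x})]
    {M : Submodule O F} (hM : IsDivisorial M) (S : Finset F) (hS : ∀ s ∈ S, s ∈ M) :
    ∃ f ∈ M, Submodule.span O (S : Set F) ≤ Submodule.span O {f} ⊔ x • M := by
  classical
  induction S using Finset.induction_on with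
  | empty => exact ⟨0, M.zero_mem, by simp⟩
  | insert g S _ ih =>
    obtain ⟨f₁, hf₁, hle⟩ := ih (fun s hs => hS s (Finset.mem_insert_of_mem hs))
    obtain ⟨f, hf, h1, h2⟩ := exists_combine hx hM hf₁ (hS g (Finset.mem_insert_self g S))
    refine ⟨f, hf, ?_⟩
    rw [Finset.coe_insert, Submodule.span_insert]
    refine sup_le ?_ (hle.trans (sup_le ?_ le_sup_right))
    · rw [Submodule.span_singleton_le_iff_mem]; exact h2
    · rw [Submodule.span_singleton_le_iff_mem]; exact h1

/-- **Lemma (A)**: `O` noetherian local domain, `x` a prime element with `O ⧸ (x)` a valuation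
ring; then every finitely generated divisorial submodule of `Frac O` is principal. -/
theorem exists_eq_span_singleton {x : O} (hx : Prime x) [IsDomain (O ⧸ Ideal.span {x})]
    [ValuationRing (O ⧸ Ideal.span {x})]
    {M : Submodule O F} (hfg : M.FG) (hM : IsDivisorial M) :
    ∃ f ∈ M, M = Submodule.span O {f} := by
  obtain ⟨S, hS⟩ := hfg
  obtain ⟨f, hf, hle⟩ := exists_span_le hx hM S (fun s hs => hS ▸ Submodule.subset_span hs)
  refine ⟨f, hf, le_antisymm ?_ ((Submodule.span_singleton_le_iff_mem f M).mpr hf)⟩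
  have hxm : x ∈ maximalIdeal O := (IsLocalRing.mem_maximalIdeal x).mpr hx.not_isUnit
  have hjac : Ideal.span {x} ≤ Ideal.jacobson (⊥ : Ideal O) := by
    rw [IsLocalRing.jacobson_eq_maximalIdeal ⊥ bot_ne_top, Ideal.span_singleton_le_iff_mem]
    exact hxm
  refine Submodule.le_of_le_smul_of_le_jacobson_bot ⟨S, hS⟩ hjac ?_
  rw [Submodule.ideal_span_singleton_smul]
  rwa [hS] at hle

/-- `x ≠ 0` with `O ⧸ (x)` a domain is a prime element. -/
theorem prime_of_isDomain_quotient {x : O} (hx0 : x ≠ 0) [IsDomain (O ⧸ Ideal.span {x})] :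
    Prime x := by
  rw [← Ideal.span_singleton_prime hx0]
  exact (Ideal.Quotient.isDomain_iff_prime _).mp inferInstance

/-- **Lemma (A), DVR form**: if `x ≠ 0` and `O ⧸ (x)` is a discrete valuation ring, every
finitely generated divisorial submodule of `Frac O` is principal. -/
theorem exists_eq_span_singleton_of_dvr {x : O} (hx0 : x ≠ 0) [IsDomain (O ⧸ Ideal.span {x})]
    [IsDiscreteValuationRing (O ⧸ Ideal.span {x})]
    {M : Submodule O F} (hfg : M.FG) (hM : IsDivisorial M) :
    ∃ f ∈ M, M = Submodule.span O {f} :=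
  exists_eq_span_singleton (prime_of_isDomain_quotient hx0) hfg hM

end Main

section Criteria

/-- a submodule cut out by finitely or infinitely many valuation conditions `f / m i ∈ V i`
inside `O = ⋂ V i` is divisorial as soon as, for every `i`, the inverse module contains an
element attaining the bound at `i` (approximation). -/
theorem isDivisorial_of_valuationSubrings {ι : Type*} (V : ι → ValuationSubring F)
    (m : ι → F) (M : Submodule O F) (hMdef : ∀ f, (∀ i, f / m i ∈ V i) → f ∈ M)
    (happ : ∀ i, ∃ n : F, n ≠ 0 ∧ m i ≠ 0 ∧ (∀ f ∈ M, n * f ∈ (algebraMap O F).range) ∧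
      (n * m i)⁻¹ ∈ V i)
    (hOV : ∀ a : O, ∀ i, algebraMap O F a ∈ V i) : IsDivisorial M := by
  intro t ht
  apply hMdef
  intro i
  obtain ⟨n, hn0, hm0, hnM, hnm⟩ := happ i
  obtain ⟨a, ha⟩ := ht n hnM
  have h1 : t / m i = (n * t) * (n * m i)⁻¹ := by
    field_simp
  rw [h1, ← ha]
  exact (V i).mul_mem _ _ (hOV a i) hnm

variable [IsLocalRing O] [IsNoetherianRing O]

open nonZeroDivisors in
/-- a reflexive fractional ideal `1 / (1 / I) = I` is divisorial. -/
theorem isDivisorial_of_one_div_one_div {I : FractionalIdeal O⁰ F} (hI : I ≠ 0)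
    (hrefl : 1 / (1 / I) = I) : IsDivisorial (I : Submodule O F) := by
  have hI' : (1 / I : FractionalIdeal O⁰ F) ≠ 0 := by
    intro h0
    rw [h0, FractionalIdeal.div_zero] at hrefl
    exact hI hrefl.symm
  intro t ht
  have : t ∈ (1 / (1 / I) : FractionalIdeal O⁰ F) := by
    rw [FractionalIdeal.mem_div_iff_of_ne_zero hI']
    intro y hy
    rw [FractionalIdeal.mem_div_iff_of_ne_zero hI] at hy
    rw [FractionalIdeal.mem_one_iff]
    have h1 : ∀ f ∈ (I : Submodule O F), y * f ∈ (algebraMap O F).range := by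
      intro f hf
      obtain ⟨a, ha⟩ := (FractionalIdeal.mem_one_iff _).mp (hy f hf)
      exact ⟨a, ha⟩
    obtain ⟨a, ha⟩ := ht y h1
    exact ⟨a, by rw [ha, mul_comm]⟩
  rw [hrefl] at this
  exact this

open nonZeroDivisors in
/-- **Lemma (A), fractional-ideal form**: a nonzero reflexive fractional ideal of a noetherian
local domain `O` with a prime element `x` such that `O ⧸ (x)` is a valuation ring is
principal. -/
theorem fractionalIdeal_eq_spanSingleton {x : O} (hx : Prime x)
    [IsDomain (O ⧸ Ideal.span {x})] [ValuationRing (O ⧸ Ideal.span {x})]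
    {I : FractionalIdeal O⁰ F} (hI : I ≠ 0) (hrefl : 1 / (1 / I) = I) :
    ∃ f : F, I = FractionalIdeal.spanSingleton O⁰ f := by
  have hfg : (I : Submodule O F).FG := by
    have := FractionalIdeal.isNoetherian I
    exact (Submodule.fg_top _).mp (this.noetherian ⊤)
  obtain ⟨f, -, hf⟩ := exists_eq_span_singleton hx hfg (isDivisorial_of_one_div_one_div hI hrefl)
  refine ⟨f, FractionalIdeal.coeToSubmodule_injective ?_⟩
  show (I : Submodule O F) = (FractionalIdeal.spanSingleton O⁰ f : Submodule O F)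
  rw [hf, FractionalIdeal.coe_spanSingleton]

end Criteria

end Fermat.Agent.GL.DvrQuot
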