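/-
GATE-L / L6b SEMILOCAL (helper46): simultaneous local generators.  Mathlib only.

The abstract half of MOVE (helper35, board 2542 (1); helper28 2469 (4)): the divisorial module
`I = I_R(D)` is principal at every crossing point `P ∈ Σ` (regularity, helper84 `DvrQuot`), and we
need ONE function `g ∈ I` generating `I` at all points of `Σ` simultaneously (then `D + div g`
misses all crossing tubes).

Everything is stated with cleared denominators, so no localisation API is needed:
`IsGenAt I P g` means `g ∈ I` and for every `x ∈ I` there are `s ∉ P` and `b` with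
`s • x = b • g` (i.e. `x ∈ B_P · g`).

* `exists_crt_idempotents` : finitely many distinct maximal ideals `P i`; elements `e i` with
  `e i - 1 ∈ P i` and `e i ∈ P j` for `j ≠ i`.
* `exists_simultaneous_generator` : `I` cyclic at each `P i` ⟹ one `g ∈ I` with `IsGenAt I (P i) g`
  for all `i`.  Any `B`-module `M`.
* `IsGenAt.of_smul_eq`, `IsGenAt.mono` : change of generator / of prime.
* field corollaries (`M = K` a field containing `B`): `isGenAt_ne_zero`, `IsGenAt.div_mem`:
  `x / g ∈ B_P` in the form `∃ s ∉ P, ∃ b, s * (x / g) = b`; `exists_move` (MOVE, abstract shape).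
-/
import Mathlib

set_option autoImplicit false

namespace Fermat.Agent.GL.SemilocalGen

open Finset

section Module

variable {B M : Type*} [CommRing B] [AddCommGroup M] [Module B M]

/-- `g ∈ I` generates the submodule `I` at the prime `P` (cleared denominators:
`I ⊆ B_P · g`). -/
def IsGenAt (I : Submodule B M) (P : Ideal B) (g : M) : Prop :=
  g ∈ I ∧ ∀ x ∈ I, ∃ s : B, s ∉ P ∧ ∃ b : B, s • x = b • g

/-- CRT idempotents for finitely many distinct maximal ideals. -/
theorem exists_crt_idempotents {ι : Type*} [Finite ι] [DecidableEq ι] (P : ι → Ideal B)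
    (hmax : ∀ i, (P i).IsMaximal) (hinj : Function.Injective P) :
    ∃ e : ι → B, ∀ i, e i - 1 ∈ P i ∧ ∀ j, j ≠ i → e i ∈ P j := by
  have hcop : Pairwise (Function.onFun IsCoprime P) := by
    intro i j hij
    exact Ideal.isCoprime_iff_sup_eq.2
      ((hmax i).coprime_of_ne (hmax j) (fun h => hij (hinj h)))
  have key : ∀ i, ∃ r : B, ∀ j, r - (if j = i then (1 : B) else 0) ∈ P j := fun i =>
    Ideal.exists_forall_sub_mem_ideal hcop (fun j => if j = i then (1 : B) else 0)
  choose e he using key
  refine ⟨e, fun i => ⟨?_, fun j hji => ?_⟩⟩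
  · have := he i i
    rwa [if_pos rfl] at this
  · have := he i j
    rwa [if_neg hji, sub_zero] at this

/-- **L6b.**  If the submodule `I` is cyclic at each of finitely many distinct maximal ideals
`P i`, there is ONE element of `I` generating it at all `P i` simultaneously. -/
theorem exists_simultaneous_generator {ι : Type*} [Fintype ι] [DecidableEq ι]
    (I : Submodule B M) (P : ι → Ideal B) (hmax : ∀ i, (P i).IsMaximal)
    (hinj : Function.Injective P) (hloc : ∀ i, ∃ g, IsGenAt I (P i) g) :
    ∃ g, ∀ i, IsGenAt I (P i) g := by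
  classical
  choose g hg using hloc
  obtain ⟨e, he⟩ := exists_crt_idempotents P hmax hinj
  have hgmem : ∑ j, e j • g j ∈ I :=
    I.sum_mem fun j _ => I.smul_mem _ (hg j).1
  refine ⟨∑ j, e j • g j, fun i => ⟨hgmem, ?_⟩⟩
  have hprime : (P i).IsPrime := (hmax i).isPrime
  -- express every `g j` through `g i` at `P i`, with `(s, b) = (1, 1)` for `j = i`
  have hsb : ∀ j, ∃ sb : B × B, sb.1 ∉ P i ∧ sb.1 • g j = sb.2 • g i ∧ (j = i → sb = (1, 1)) := by
    intro j
    by_cases hji : j = i
    · subst hji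
      exact ⟨(1, 1), fun h => hprime.ne_top ((Ideal.eq_top_iff_one _).2 h), rfl, fun _ => rfl⟩
    · obtain ⟨s, hs, b, hb⟩ := (hg i).2 (g j) (hg j).1
      exact ⟨(s, b), hs, hb, fun h => absurd h hji⟩
  choose sb hsb1 hsb2 hsb3 using hsb
  set S : B := ∏ j, (sb j).1 with hS
  set c : B := ∑ j, e j * (∏ j' ∈ univ.erase j, (sb j').1) * (sb j).2 with hc
  have hSnot : S ∉ P i := by
    intro h
    obtain ⟨j, -, hj⟩ := (hprime.prod_mem_iff).1 h
    exact hsb1 j hj
  -- `S • g = c • g i`
  have h1 : S • ∑ j, e j • g j = c • g i := by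
    rw [Finset.smul_sum, hc, Finset.sum_smul]
    refine Finset.sum_congr rfl fun j _ => ?_
    have hSj : S = (sb j).1 * ∏ j' ∈ univ.erase j, (sb j').1 :=
      (Finset.mul_prod_erase univ (fun j' => (sb j').1) (Finset.mem_univ j)).symm
    calc S • e j • g j
        = (e j * ∏ j' ∈ univ.erase j, (sb j').1) • ((sb j).1 • g j) := by
          rw [smul_smul, smul_smul, hSj]; congr 1; ring
      _ = (e j * (∏ j' ∈ univ.erase j, (sb j').1) * (sb j).2) • g i := by
          rw [hsb2 j, smul_smul]
  -- `c ≡ S mod P i`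
  have h2 : c - S ∈ P i := by
    have hi1 : (sb i).1 = 1 := by rw [hsb3 i rfl]
    have hi2 : (sb i).2 = 1 := by rw [hsb3 i rfl]
    have hSi : S = ∏ j' ∈ univ.erase i, (sb j').1 := by
      rw [hS, ← Finset.mul_prod_erase univ (fun j' => (sb j').1) (Finset.mem_univ i), hi1,
        one_mul]
    have hsplit : c = e i * S + ∑ j ∈ univ.erase i,
        e j * (∏ j' ∈ univ.erase j, (sb j').1) * (sb j).2 := by
      rw [hc, ← Finset.add_sum_erase univ _ (Finset.mem_univ i), hi2, mul_one, ← hSi]
    rw [hsplit]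
    have e1 : e i * S + ∑ j ∈ univ.erase i,
        e j * (∏ j' ∈ univ.erase j, (sb j').1) * (sb j).2 - S =
        (e i - 1) * S + ∑ j ∈ univ.erase i,
          e j * (∏ j' ∈ univ.erase j, (sb j').1) * (sb j).2 := by ring
    rw [e1]
    refine (P i).add_mem ((P i).mul_mem_right _ (he i).1) ((P i).sum_mem fun j hj => ?_)
    have hji : j ≠ i := (Finset.mem_erase.1 hj).1
    rw [mul_assoc]
    exact (P i).mul_mem_right _ ((he j).2 i hji.symm)
  have hcnot : c ∉ P i := by
    intro h
    apply hSnot
    have := (P i).sub_mem h h2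
    rwa [sub_sub_cancel] at this
  -- conclusion
  intro x hx
  obtain ⟨s, hs, b, hb⟩ := (hg i).2 x hx
  refine ⟨c * s, fun h => (hprime.mem_or_mem h).elim hcnot hs, b * S, ?_⟩
  calc (c * s) • x = c • (s • x) := by rw [smul_smul]
    _ = c • (b • g i) := by rw [hb]
    _ = b • (c • g i) := smul_comm c b (g i)
    _ = b • (S • ∑ j, e j • g j) := by rw [h1]
    _ = (b * S) • ∑ j, e j • g j := by rw [smul_smul]

/-- Multiplying a local generator by an element which is a unit at `P` (cleared denominators: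
`u • g' = v • g` with `u, v ∉ P`) gives a local generator. -/
theorem IsGenAt.of_smul_eq {I : Submodule B M} {P : Ideal B} [P.IsPrime] {g g' : M}
    (h : IsGenAt I P g) (hg' : g' ∈ I) {u v : B} (hv : v ∉ P) (huv : u • g' = v • g) :
    IsGenAt I P g' := by
  refine ⟨hg', fun x hx => ?_⟩
  obtain ⟨s, hs, b, hb⟩ := h.2 x hx
  refine ⟨v * s, fun hmem => (Ideal.IsPrime.mem_or_mem ‹_› hmem).elim hv hs, b * u, ?_⟩
  calc (v * s) • x = v • (s • x) := by rw [smul_smul]
    _ = v • (b • g) := by rw [hb]
    _ = b • (v • g) := smul_comm v b g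
    _ = b • (u • g') := by rw [huv]
    _ = (b * u) • g' := by rw [smul_smul]

/-- Monotonicity in the prime: generation at `Q` gives generation at every `P ≤ Q`
(e.g. at the vertical primes through a crossing point). -/
theorem IsGenAt.mono {I : Submodule B M} {P Q : Ideal B} {g : M} (h : IsGenAt I Q g)
    (hPQ : P ≤ Q) : IsGenAt I P g :=
  ⟨h.1, fun x hx => by
    obtain ⟨s, hs, b, hb⟩ := h.2 x hx
    exact ⟨s, fun hsP => hs (hPQ hsP), b, hb⟩⟩

end Module

section Field

variable {B K : Type*} [CommRing B] [Field K] [Algebra B K]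

/-- In a field `K ⊇ B` (injective structure map), a local generator of a nonzero fractional
ideal is nonzero. -/
theorem isGenAt_ne_zero (hinj : Function.Injective (algebraMap B K)) {I : Submodule B K}
    {P : Ideal B} {g : K} (h : IsGenAt I P g) {x : K} (hx : x ∈ I) (hx0 : x ≠ 0) : g ≠ 0 := by
  rintro rfl
  obtain ⟨s, hs, b, hb⟩ := h.2 x hx
  rw [smul_zero, Algebra.smul_def, mul_eq_zero] at hb
  rcases hb with hb | hb
  · have : s = 0 := hinj (by rw [hb, map_zero])
    exact hs (this ▸ P.zero_mem)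
  · exact hx0 hb

/-- `x / g ∈ B_P` for every `x ∈ I` (cleared denominators). -/
theorem IsGenAt.div_mem {I : Submodule B K} {P : Ideal B} {g : K} (h : IsGenAt I P g)
    (hg0 : g ≠ 0) {x : K} (hx : x ∈ I) :
    ∃ s : B, s ∉ P ∧ ∃ b : B, algebraMap B K s * (x / g) = algebraMap B K b := by
  obtain ⟨s, hs, b, hb⟩ := h.2 x hx
  refine ⟨s, hs, b, ?_⟩
  rw [Algebra.smul_def, Algebra.smul_def] at hb
  rw [← mul_div_assoc, hb, mul_div_assoc, div_self hg0, mul_one]

/-- **MOVE, abstract shape.**  `I` a `B`-submodule of the field `K`, cyclic at each of finitely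
many distinct maximal ideals `P i`, `I ≠ 0`.  Then there is `g ∈ I`, `g ≠ 0`, such that
`g⁻¹ • I ⊆ B_{P i}` for all `i` and `1 ∈ g⁻¹ • I`: the translated module `g⁻¹ I` (the module of
the divisor `D + div g`) is TRIVIAL at every `P i`. -/
theorem exists_move {ι : Type*} [Fintype ι] [DecidableEq ι]
    (hinj : Function.Injective (algebraMap B K))
    (I : Submodule B K) (P : ι → Ideal B) (hmax : ∀ i, (P i).IsMaximal)
    (hPinj : Function.Injective P) (hloc : ∀ i, ∃ g, IsGenAt I (P i) g)
    (hI : ∃ x ∈ I, x ≠ 0) :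
    ∃ g ∈ I, g ≠ 0 ∧ ∀ i, ∀ x ∈ I,
      ∃ s : B, s ∉ P i ∧ ∃ b : B, algebraMap B K s * (x / g) = algebraMap B K b := by
  obtain ⟨g, hg⟩ := exists_simultaneous_generator I P hmax hPinj hloc
  obtain ⟨x0, hx0, hx00⟩ := hI
  rcases isEmpty_or_nonempty ι with hι | ⟨⟨i0⟩⟩
  · exact ⟨x0, hx0, hx00, fun i => (hι.false i).elim⟩
  · have hg0 : g ≠ 0 := isGenAt_ne_zero hinj (hg i0) hx0 hx00
    exact ⟨g, (hg i0).1, hg0, fun i x hx => (hg i).div_mem hg0 hx⟩

end Field

end Fermat.Agent.GL.SemilocalGen
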