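import Mathlib
import Fermat.Agent.GL.Local.DvrQuot
import Fermat.Agent.GL.Local.SemilocalGen

set_option autoImplicit false
set_option linter.unusedSectionVars false
set_option linter.unusedVariables false

namespace Fermat.Agent.GL.KrullFrame

open Fermat.Agent.GL

variable {A F : Type*} [CommRing A] [IsDomain A] [Field F] [Algebra A F] [IsFractionRing A F]
variable {𝒱 : Type*}

/-- `v` lies over `P`: the centre of `V v` on `A` is contained in `P`. -/
def Over (V : 𝒱 → ValuationSubring F) (P : Ideal A) (v : 𝒱) : Prop :=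
  ∀ s : A, algebraMap A F s ∈ (V v).nonunits → s ∈ P

/-- Krull-type frame: `A = ⋂ V v`, finite character, rank one. -/
structure IsFrame (A : Type*) {F : Type*} [CommRing A] [Field F] [Algebra A F] {𝒱 : Type*}
    (V : 𝒱 → ValuationSubring F) : Prop where
  mem_range_iff : ∀ f : F, f ∈ (algebraMap A F).range ↔ ∀ v, f ∈ V v
  finite_bad : ∀ f : F, {v | f ∉ V v}.Finite
  rank_one : ∀ (v : 𝒱) (s : A), algebraMap A F s ∈ (V v).nonunits →
    ∀ f : F, ∃ n : ℕ, (algebraMap A F s) ^ n * f ∈ V v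

variable {V : 𝒱 → ValuationSubring F}

theorem IsFrame.algebraMap_mem (hV : IsFrame A V) (a : A) (v : 𝒱) : algebraMap A F a ∈ V v :=
  (hV.mem_range_iff _).mp ⟨a, rfl⟩ v

/-- an element of a valuation subring which is not a non-unit has its inverse in it. -/
theorem inv_mem_of_not_mem_nonunits {W : ValuationSubring F} {x : F}
    (hx' : x ∉ W.nonunits) : x⁻¹ ∈ W := by
  rw [ValuationSubring.mem_nonunits_iff_or] at hx'
  push Not at hx'
  exact hx'.2

/-- if `x, y ∈ W`, `x ≠ 0` and `x * y` is a unit of `W` then `y` is a unit of `W`. -/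
theorem inv_mem_of_mul_inv_mem {W : ValuationSubring F} {x y : F} (hx : x ∈ W) (hx0 : x ≠ 0)
    (hxy : (x * y)⁻¹ ∈ W) : y⁻¹ ∈ W := by
  by_cases hy0 : y = 0
  · rw [hy0, inv_zero]; exact W.zero_mem
  · have : y⁻¹ = x * (x * y)⁻¹ := by
      field_simp
    rw [this]
    exact W.mul_mem _ _ hx hxy

/-- elements outside `P` are units of every `V v` over `P`. -/
theorem IsFrame.inv_algebraMap_mem (hV : IsFrame A V) {P : Ideal A} {v : 𝒱} (hv : Over V P v)
    {s : A} (hs : s ∉ P) : (algebraMap A F s)⁻¹ ∈ V v :=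
  inv_mem_of_not_mem_nonunits (fun h => hs (hv s h))

theorem algebraMap_ne_zero_of_not_mem {P : Ideal A} {s : A} (hs : s ∉ P) :
    algebraMap A F s ≠ 0 := by
  intro h
  have : s = 0 := (map_eq_zero_iff _ (IsFractionRing.injective A F)).mp h
  exact hs (this ▸ P.zero_mem)

/-- **clearing lemma**: a family `g v` with finitely many bad places, none of them over `P`,
is made integral everywhere by ONE multiplier `s ∉ P`. -/
theorem IsFrame.exists_clear (hV : IsFrame A V) (P : Ideal A) [P.IsPrime] (g : 𝒱 → F)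
    (hfin : {v | g v ∉ V v}.Finite) (hgood : ∀ v, Over V P v → g v ∈ V v) :
    ∃ s : A, s ∉ P ∧ ∀ v, algebraMap A F s * g v ∈ V v := by
  classical
  have key : ∀ v, g v ∉ V v → ∃ s : A, s ∉ P ∧ algebraMap A F s * g v ∈ V v := by
    intro v hv
    have hnot : ¬ Over V P v := fun h => hv (hgood v h)
    simp only [Over, not_forall] at hnot
    obtain ⟨s, hs, hsP⟩ := hnot
    obtain ⟨n, hn⟩ := hV.rank_one v s hs (g v)
    exact ⟨s ^ n, fun h => hsP (Ideal.IsPrime.mem_of_pow_mem ‹_› n h), by rwa [map_pow]⟩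
  choose! s hsP hs using key
  refine ⟨∏ v ∈ hfin.toFinset, s v, ?_, ?_⟩
  · intro h
    rw [Ideal.IsPrime.prod_mem_iff] at h
    obtain ⟨v, hv, hvP⟩ := h
    exact hsP v (by simpa using hv) hvP
  · intro v
    by_cases hv : g v ∈ V v
    · exact (V v).mul_mem _ _ (hV.algebraMap_mem _ v) hv
    · have hmem : v ∈ hfin.toFinset := by simpa using hv
      rw [← Finset.mul_prod_erase _ _ hmem, map_mul, mul_right_comm]
      exact (V v).mul_mem _ _ (hs v hv) (hV.algebraMap_mem _ v)

/-- (T1), elementary form: `f ∈ A_P ↔ f` is integral at every `v` over `P`. -/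
theorem IsFrame.exists_loc_iff (hV : IsFrame A V) (P : Ideal A) [P.IsPrime] (f : F) :
    (∃ a s : A, s ∉ P ∧ algebraMap A F s * f = algebraMap A F a) ↔
      ∀ v, Over V P v → f ∈ V v := by
  constructor
  · rintro ⟨a, s, hs, h⟩ v hv
    have hs0 : algebraMap A F s ≠ 0 := algebraMap_ne_zero_of_not_mem hs
    have : f = (algebraMap A F s)⁻¹ * algebraMap A F a := by
      rw [← h, ← mul_assoc, inv_mul_cancel₀ hs0, one_mul]
    rw [this]
    exact (V v).mul_mem _ _ (hV.inv_algebraMap_mem hv hs) (hV.algebraMap_mem a v)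
  · intro h
    obtain ⟨s, hs, hsf⟩ := hV.exists_clear P (fun _ => f) (hV.finite_bad f) h
    obtain ⟨a, ha⟩ := (hV.mem_range_iff _).mpr hsf
    exact ⟨a, s, hs, ha.symm⟩

section Loc

variable (P : Ideal A) [P.IsPrime] (O : Type*) [CommRing O] [Algebra A O]
  [IsLocalization.AtPrime O P] [Algebra O F] [IsScalarTower A O F]

/-- (T1): `O = A_P` is the intersection of the `V v` over `P`. -/
theorem IsFrame.mem_range_loc_iff (hV : IsFrame A V) (f : F) :
    f ∈ (algebraMap O F).range ↔ ∀ v, Over V P v → f ∈ V v := by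
  rw [← hV.exists_loc_iff P f]
  constructor
  · rintro ⟨o, rfl⟩
    obtain ⟨⟨a, s⟩, hmk⟩ := IsLocalization.mk'_surjective P.primeCompl o
    refine ⟨a, s, s.2, ?_⟩
    have hmk' : IsLocalization.mk' O a s = o := hmk
    have h1 := IsLocalization.mk'_spec O a s
    rw [hmk'] at h1
    have h2 := congrArg (algebraMap O F) h1
    rw [map_mul, ← IsScalarTower.algebraMap_apply, ← IsScalarTower.algebraMap_apply] at h2
    rw [mul_comm]; exact h2
  · rintro ⟨a, s, hs, h⟩
    refine ⟨IsLocalization.mk' O a (⟨s, hs⟩ : P.primeCompl), ?_⟩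
    have hs0 : algebraMap A F s ≠ 0 := algebraMap_ne_zero_of_not_mem hs
    have h1 := IsLocalization.mk'_spec O a (⟨s, hs⟩ : P.primeCompl)
    have h2 := congrArg (algebraMap O F) h1
    rw [map_mul, ← IsScalarTower.algebraMap_apply, ← IsScalarTower.algebraMap_apply] at h2
    apply mul_right_cancel₀ hs0
    rw [h2, ← h, mul_comm]

theorem IsFrame.algebraMap_loc_mem (hV : IsFrame A V) (o : O) {v : 𝒱} (hv : Over V P v) :
    algebraMap O F o ∈ V v :=
  (hV.mem_range_loc_iff P O _).mp ⟨o, rfl⟩ v hv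

/-- the global divisorial module `L(D) = {f | ∀ v, f / m v ∈ V v}`. -/
def divModule (hV : IsFrame A V) (m : 𝒱 → F) : Submodule A F where
  carrier := {f | ∀ v, f / m v ∈ V v}
  zero_mem' := by
    intro v; simp only [zero_div]; exact (V v).zero_mem
  add_mem' := by
    intro a b ha hb v
    rw [add_div]; exact (V v).add_mem _ _ (ha v) (hb v)
  smul_mem' := by
    intro c f hf v
    rw [Algebra.smul_def, mul_div_assoc]
    exact (V v).mul_mem _ _ (hV.algebraMap_mem c v) (hf v)

theorem mem_divModule {hV : IsFrame A V} {m : 𝒱 → F} {f : F} :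
    f ∈ divModule hV m ↔ ∀ v, f / m v ∈ V v := Iff.rfl

/-- the local divisorial module `L(D)_P = {f | ∀ v over P, f / m v ∈ V v}`. -/
def locModule (hV : IsFrame A V) (m : 𝒱 → F) : Submodule O F where
  carrier := {f | ∀ v, Over V P v → f / m v ∈ V v}
  zero_mem' := by
    intro v _; simp only [zero_div]; exact (V v).zero_mem
  add_mem' := by
    intro a b ha hb v hv
    rw [add_div]; exact (V v).add_mem _ _ (ha v hv) (hb v hv)
  smul_mem' := by
    intro c f hf v hv
    rw [Algebra.smul_def, mul_div_assoc]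
    exact (V v).mul_mem _ _ (hV.algebraMap_loc_mem P O c hv) (hf v hv)

theorem mem_locModule {hV : IsFrame A V} {m : 𝒱 → F} {f : F} :
    f ∈ locModule P O hV m ↔ ∀ v, Over V P v → f / m v ∈ V v := Iff.rfl

theorem divModule_le_locModule (hV : IsFrame A V) (m : 𝒱 → F) {f : F}
    (hf : f ∈ divModule hV m) : f ∈ locModule P O hV m := fun v _ => hf v

/-- (T2): every element of `L(D)_P` has a multiple by some `s ∉ P` in `L(D)`. -/
theorem exists_smul_mem_divModule (hV : IsFrame A V) (m : 𝒱 → F)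
    (hmfin : {v | (m v)⁻¹ ∉ V v}.Finite) {f : F} (hf : f ∈ locModule P O hV m) :
    ∃ s : A, s ∉ P ∧ algebraMap A F s * f ∈ divModule hV m := by
  have hfin : {v | f / m v ∉ V v}.Finite := by
    refine ((hV.finite_bad f).union hmfin).subset ?_
    intro v hv
    by_contra hcon
    simp only [Set.mem_union, Set.mem_ofPred_eq, not_or, not_not] at hcon
    apply hv
    rw [div_eq_mul_inv]
    exact (V v).mul_mem _ _ hcon.1 hcon.2
  obtain ⟨s, hs, h⟩ := hV.exists_clear P (fun v => f / m v) hfin hf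
  refine ⟨s, hs, fun v => ?_⟩
  rw [mul_div_assoc]; exact h v

end Loc

section Reg

/-- "every finitely generated divisorial `O`-submodule of `F` is principal": the form in which
REG at `P` is consumed. -/
def DivPrincipal (O F : Type*) [CommRing O] [IsDomain O] [Field F] [Algebra O F]
    [IsFractionRing O F] : Prop :=
  ∀ M : Submodule O F, M.FG → DvrQuot.IsDivisorial M → ∃ f ∈ M, M = Submodule.span O {f}

/-- helper84's Lemma (A): a noetherian local domain with a prime element `x` such that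
`O ⧸ (x)` is a valuation ring satisfies `DivPrincipal`. -/
theorem divPrincipal_of_prime {O : Type*} [CommRing O] [IsDomain O] [Algebra O F]
    [IsFractionRing O F] [IsLocalRing O] [IsNoetherianRing O] {x : O} (hx : Prime x)
    [IsDomain (O ⧸ Ideal.span {x})] [ValuationRing (O ⧸ Ideal.span {x})] : DivPrincipal O F :=
  fun _ hfg hM => DvrQuot.exists_eq_span_singleton hx hfg hM

variable (P : Ideal A) [P.IsPrime] (O : Type*) [CommRing O] [IsDomain O] [Algebra A O]
  [IsLocalization.AtPrime O P] [Algebra O F] [IsScalarTower A O F] [IsFractionRing O F]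

/-- (T3): `L(D)_P` is divisorial, given approximations `n` with `n · L(D)_P ⊆ O` attaining the
bound at each `v` over `P`. -/
theorem isDivisorial_locModule (hV : IsFrame A V) (m : 𝒱 → F) (hm0 : ∀ v, m v ≠ 0)
    (happ : ∀ v, Over V P v → ∃ n : F, n ≠ 0 ∧ (∀ v', Over V P v' → n * m v' ∈ V v') ∧
      (n * m v)⁻¹ ∈ V v) :
    DvrQuot.IsDivisorial (locModule P O hV m) := by
  refine DvrQuot.isDivisorial_of_valuationSubrings (ι := {v // Over V P v}) (fun i => V i.1)
    (fun i => m i.1) _ ?_ ?_ ?_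
  · intro f hf v hv
    exact hf ⟨v, hv⟩
  · rintro ⟨v, hv⟩
    obtain ⟨n, hn0, hn, hnv⟩ := happ v hv
    refine ⟨n, hn0, hm0 v, ?_, hnv⟩
    intro f hf
    rw [hV.mem_range_loc_iff P O]
    intro v' hv'
    have hm := hm0 v'
    have : n * f = (n * m v') * (f / m v') := by
      field_simp
    rw [this]
    exact (V v').mul_mem _ _ (hn v' hv') (hf v' hv')
  · rintro a ⟨v, hv⟩
    exact hV.algebraMap_loc_mem P O a hv

/-- `L(D)_P` is finitely generated when `A` is noetherian and `m` has a common denominator. -/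
theorem fg_locModule [IsNoetherianRing A] (hV : IsFrame A V) (m : 𝒱 → F) (hm0 : ∀ v, m v ≠ 0)
    (hbd : ∃ n : F, n ≠ 0 ∧ ∀ v, Over V P v → n * m v ∈ V v) :
    (locModule P O hV m).FG := by
  obtain ⟨n, hn0, hn⟩ := hbd
  have : IsNoetherianRing O := IsLocalization.isNoetherianRing P.primeCompl O inferInstance
  have hinj : Function.Injective (LinearMap.mulLeft O n : F →ₗ[O] F) := by
    intro a b h
    simp only [LinearMap.mulLeft_apply] at h
    exact mul_left_cancel₀ hn0 h
  apply Submodule.fg_of_fg_map_injective _ hinj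
  have hle : (locModule P O hV m).map (LinearMap.mulLeft O n) ≤
      LinearMap.range (Algebra.linearMap O F) := by
    rintro _ ⟨f, hf, rfl⟩
    have hmem : n * f ∈ (algebraMap O F).range := by
      rw [hV.mem_range_loc_iff P O]
      intro v hv
      have hm := hm0 v
      have : n * f = (n * m v) * (f / m v) := by
        field_simp
      rw [this]
      exact (V v).mul_mem _ _ (hn v hv) (hf v hv)
    obtain ⟨o, ho⟩ := hmem
    exact ⟨o, ho⟩
  exact (isNoetherian_submodule.mp inferInstance) _ hle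

/-- (T4): a generator of `L(D)` at `P` (in the sense of `SemilocalGen.IsGenAt`). -/
theorem exists_isGenAt [IsNoetherianRing A] (hV : IsFrame A V) (m : 𝒱 → F) (hm0 : ∀ v, m v ≠ 0)
    (hmfin : {v | (m v)⁻¹ ∉ V v}.Finite)
    (happ : ∀ v, Over V P v → ∃ n : F, n ≠ 0 ∧ (∀ v', Over V P v' → n * m v' ∈ V v') ∧
      (n * m v)⁻¹ ∈ V v)
    (hbd : ∃ n : F, n ≠ 0 ∧ ∀ v, Over V P v → n * m v ∈ V v)
    (hreg : DivPrincipal O F) :
    ∃ g, SemilocalGen.IsGenAt (divModule hV m) P g := by
  obtain ⟨f, hf, hspan⟩ := hreg _ (fg_locModule P O hV m hm0 hbd)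
    (isDivisorial_locModule P O hV m hm0 happ)
  obtain ⟨s, hs, hsf⟩ := exists_smul_mem_divModule P O hV m hmfin hf
  refine ⟨algebraMap A F s * f, hsf, ?_⟩
  intro y hy
  have hy' : y ∈ locModule P O hV m := divModule_le_locModule P O hV m hy
  rw [hspan, Submodule.mem_span_singleton] at hy'
  obtain ⟨o, rfl⟩ := hy'
  obtain ⟨⟨a, t⟩, hmk⟩ := IsLocalization.mk'_surjective P.primeCompl o
  have hmk' : IsLocalization.mk' O a t = o := hmk
  have h1 := IsLocalization.mk'_spec O a t
  rw [hmk'] at h1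
  have h2 := congrArg (algebraMap O F) h1
  rw [map_mul, ← IsScalarTower.algebraMap_apply, ← IsScalarTower.algebraMap_apply] at h2
  refine ⟨t * s, fun hmem => (Ideal.IsPrime.mem_or_mem ‹_› hmem).elim t.2 hs, a, ?_⟩
  rw [Algebra.smul_def, Algebra.smul_def, Algebra.smul_def, map_mul, ← h2]
  ring

end Reg

/-- if `g` generates `L(D)` at `P`, `v` lies over `P` and `L(D)` attains the bound `m v` at `v`
(some `t ∈ L(D)`, `t ≠ 0`, with `t / m v` a unit of `V v`), then `g / m v` is a unit of `V v`. -/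
theorem inv_div_mem_of_isGenAt (hV : IsFrame A V) {P : Ideal A} {m : 𝒱 → F} {g : F}
    (hg : SemilocalGen.IsGenAt (divModule hV m) P g) {v : 𝒱} (hv : Over V P v)
    (hex : ∃ t ∈ divModule hV m, t ≠ 0 ∧ (t / m v)⁻¹ ∈ V v) : (g / m v)⁻¹ ∈ V v := by
  obtain ⟨t, ht, ht0, htv⟩ := hex
  obtain ⟨s, hs, b, hb⟩ := hg.2 t ht
  rw [Algebra.smul_def, Algebra.smul_def] at hb
  have hs0 : algebraMap A F s ≠ 0 := algebraMap_ne_zero_of_not_mem hs
  have hsinv := hV.inv_algebraMap_mem hv hs
  have hb0 : algebraMap A F b ≠ 0 := by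
    intro hb0
    rw [hb0, zero_mul, mul_eq_zero] at hb
    exact ht0 (hb.resolve_left hs0)
  refine inv_mem_of_mul_inv_mem (hV.algebraMap_mem b v) hb0 ?_
  have : algebraMap A F b * (g / m v) = algebraMap A F s * (t / m v) := by
    rw [← mul_div_assoc, ← hb, mul_div_assoc]
  rw [this, mul_inv]
  exact (V v).mul_mem _ _ hsinv htv

/-- **(T5) MOVE**: `A` noetherian with a Krull-type frame `V`, `P i` finitely many distinct maximal
ideals at which divisorial modules are principal (REG), `m` local equations of a divisor `D`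
with the approximation / exactness properties at the places over the `P i`.  Then there is
ONE `g ∈ L(D)`, `g ≠ 0`, such that `g / m v` is a unit of `V v` for every `v` over some `P i`:
`D + div g` has no component through any of the points `P i`. -/
theorem exists_move [IsNoetherianRing A] (hV : IsFrame A V) {ι : Type*} [Finite ι]
    (P : ι → Ideal A) [hmax : ∀ i, (P i).IsMaximal] (hinj : Function.Injective P)
    (O : ι → Type*) [∀ i, CommRing (O i)] [∀ i, IsDomain (O i)] [∀ i, Algebra A (O i)]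
    [∀ i, IsLocalization.AtPrime (O i) (P i)] [∀ i, Algebra (O i) F]
    [∀ i, IsScalarTower A (O i) F] [∀ i, IsFractionRing (O i) F]
    (hreg : ∀ i, DivPrincipal (O i) F)
    (m : 𝒱 → F) (hm0 : ∀ v, m v ≠ 0) (hmfin : {v | (m v)⁻¹ ∉ V v}.Finite)
    (happ : ∀ i v, Over V (P i) v → ∃ n : F, n ≠ 0 ∧
      (∀ v', Over V (P i) v' → n * m v' ∈ V v') ∧ (n * m v)⁻¹ ∈ V v)
    (hbd : ∀ i, ∃ n : F, n ≠ 0 ∧ ∀ v, Over V (P i) v → n * m v ∈ V v)
    (hex : ∀ i v, Over V (P i) v → ∃ t ∈ divModule hV m, t ≠ 0 ∧ (t / m v)⁻¹ ∈ V v) :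
    ∃ g ∈ divModule hV m, ∀ i, SemilocalGen.IsGenAt (divModule hV m) (P i) g ∧
      ∀ v, Over V (P i) v → g / m v ∈ V v ∧ (g / m v)⁻¹ ∈ V v := by
  classical
  have := Fintype.ofFinite ι
  have hloc : ∀ i, ∃ g, SemilocalGen.IsGenAt (divModule hV m) (P i) g := fun i =>
    exists_isGenAt (P i) (O i) hV m hm0 hmfin (happ i) (hbd i) (hreg i)
  obtain ⟨g, hg⟩ := SemilocalGen.exists_simultaneous_generator (divModule hV m) P hmax hinj hloc
  by_cases hι : Nonempty ι
  · obtain ⟨i0⟩ := hι
    refine ⟨g, (hg i0).1, fun i => ⟨hg i, fun v hv => ⟨(hg i).1 v, ?_⟩⟩⟩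
    exact inv_div_mem_of_isGenAt hV (hg i) hv (hex i v hv)
  · exact ⟨0, (divModule hV m).zero_mem, fun i => absurd ⟨i⟩ hι⟩

end Fermat.Agent.GL.KrullFrame
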