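/-
GATE-L / UNRAM-BASE part 3 (helper26).  Generic brick: a valuation subring `A` of a field `Ω`, a
subfield `L` and `π ∈ L` with `v(π) < 1` such that `v(Lˣ) ⊂ v(π)^ℤ`: then `A ∩ L` is a discrete
valuation ring with uniformiser `π`.  Mathlib only.
-/
import Mathlib

set_option autoImplicit false

namespace Fermat.Agent.GL.Local.ComapDVR

variable {Ω : Type*} [Field Ω] (A : ValuationSubring Ω) {L : Type*} [Field L] [Algebra L Ω]

/-- the valuation ring induced on a subfield. -/
abbrev sub : ValuationSubring L := A.comap (algebraMap L Ω)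

theorem mem_sub_iff (x : L) : x ∈ sub A (L := L) ↔ algebraMap L Ω x ∈ A := Iff.rfl

theorem isUnit_sub_iff (x : sub A (L := L)) :
    IsUnit x ↔ A.valuation (algebraMap L Ω (x : L)) = 1 := by
  constructor
  · intro h
    obtain ⟨y, hy⟩ := h.exists_right_inv
    have h1 : algebraMap L Ω (x : L) * algebraMap L Ω (y : L) = 1 := by
      have := congrArg (fun z : sub A (L := L) => algebraMap L Ω (z : L)) hy
      simpa using this
    have h2 := congrArg A.valuation h1
    rw [map_mul, map_one] at h2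
    have hx : A.valuation (algebraMap L Ω (x : L)) ≤ 1 := (A.valuation_le_one_iff _).mpr x.2
    have hy' : A.valuation (algebraMap L Ω (y : L)) ≤ 1 := (A.valuation_le_one_iff _).mpr y.2
    apply le_antisymm hx
    by_contra hlt
    push Not at hlt
    have : A.valuation (algebraMap L Ω (x : L)) * A.valuation (algebraMap L Ω (y : L)) < 1 := by
      calc _ ≤ A.valuation (algebraMap L Ω (x : L)) * 1 := by gcongr
        _ < 1 := by rwa [mul_one]
    exact absurd h2 this.ne
  · intro h
    have hx0 : (x : L) ≠ 0 := by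
      intro h0
      rw [h0, map_zero, map_zero] at h
      exact zero_ne_one h
    have hmem : (x : L)⁻¹ ∈ sub A (L := L) := by
      rw [mem_sub_iff, map_inv₀, ← A.valuation_le_one_iff, map_inv₀, h, inv_one]
    refine IsUnit.of_mul_eq_one ⟨(x : L)⁻¹, hmem⟩ ?_
    apply Subtype.ext
    show (x : L) * (x : L)⁻¹ = 1
    exact mul_inv_cancel₀ hx0

variable {π : L} (hπ : algebraMap L Ω π ∈ A.nonunits) (hπ0 : π ≠ 0)
  (hval : ∀ x : L, x ≠ 0 → ∃ n : ℤ,
    A.valuation (algebraMap L Ω x) = A.valuation (algebraMap L Ω π) ^ n)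

/-- `π` as an element of the induced valuation ring. -/
def unif : sub A (L := L) := ⟨π, A.nonunits_le hπ⟩

include hπ0 hval in
theorem exists_pow_mul_unit (x : sub A (L := L)) (hx0 : x ≠ 0) :
    ∃ (m : ℕ) (u : sub A (L := L)), IsUnit u ∧ x = unif A hπ ^ m * u := by
  have hx0' : (x : L) ≠ 0 := fun h => hx0 (Subtype.ext h)
  have hvπ0 : A.valuation (algebraMap L Ω π) ≠ 0 :=
    (Valuation.ne_zero_iff _).mpr ((map_ne_zero _).mpr hπ0)
  have hvπ1 : A.valuation (algebraMap L Ω π) < 1 := (A.mem_nonunits_iff).mp hπ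
  obtain ⟨n, hn⟩ := hval (x : L) hx0'
  have hn0 : 0 ≤ n := by
    by_contra hneg
    push Not at hneg
    have h1 : A.valuation (algebraMap L Ω (x : L)) ≤ 1 := (A.valuation_le_one_iff _).mpr x.2
    rw [hn] at h1
    have h2 : 1 < A.valuation (algebraMap L Ω π) ^ n := by
      have := (zpow_right_strictAnti₀ (zero_lt_iff.2 hvπ0) hvπ1) hneg
      simpa using this
    exact absurd h1 (not_le.mpr h2)
  obtain ⟨m, rfl⟩ := Int.eq_ofNat_of_zero_le hn0
  rw [zpow_natCast] at hn
  have hu : A.valuation (algebraMap L Ω ((x : L) / π ^ m)) = 1 := by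
    rw [map_div₀, map_div₀, map_pow, map_pow, hn, div_self (pow_ne_zero _ hvπ0)]
  have humem : (x : L) / π ^ m ∈ sub A (L := L) := by
    rw [mem_sub_iff, ← A.valuation_le_one_iff, hu]
  refine ⟨m, ⟨(x : L) / π ^ m, humem⟩, (isUnit_sub_iff A _).mpr hu, ?_⟩
  apply Subtype.ext
  show (x : L) = π ^ m * ((x : L) / π ^ m)
  field_simp

include hπ0 hval in
theorem irreducible_unif : Irreducible (unif A hπ) := by
  have hvπ1 : A.valuation (algebraMap L Ω π) < 1 := (A.mem_nonunits_iff).mp hπ
  have hne : unif A hπ ≠ 0 := fun h => hπ0 (congrArg Subtype.val h)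
  have hnu : ¬ IsUnit (unif A hπ) := by
    rw [isUnit_sub_iff]
    exact hvπ1.ne
  refine ⟨hnu, ?_⟩
  intro a b hab
  have ha0 : a ≠ 0 := by
    rintro rfl
    rw [zero_mul] at hab
    exact hne hab
  have hb0 : b ≠ 0 := by
    rintro rfl
    rw [mul_zero] at hab
    exact hne hab
  obtain ⟨i, u, hu, rfl⟩ := exists_pow_mul_unit A hπ hπ0 hval a ha0
  obtain ⟨j, u', hu', rfl⟩ := exists_pow_mul_unit A hπ hπ0 hval b hb0
  rcases Nat.eq_zero_or_pos i with hi | hi
  · left
    rw [hi, pow_zero, one_mul]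
    exact hu
  rcases Nat.eq_zero_or_pos j with hj | hj
  · right
    rw [hj, pow_zero, one_mul]
    exact hu'
  exfalso
  obtain ⟨i', rfl⟩ : ∃ i', i = i' + 1 := ⟨i - 1, by omega⟩
  obtain ⟨j', rfl⟩ : ∃ j', j = j' + 1 := ⟨j - 1, by omega⟩
  have h1 : unif A hπ * 1 =
      unif A hπ * (unif A hπ * (unif A hπ ^ i' * unif A hπ ^ j' * (u * u'))) := by
    rw [mul_one]
    conv_lhs => rw [hab]
    ring
  have h2 := mul_left_cancel₀ hne h1
  exact hnu (IsUnit.of_mul_eq_one _ h2.symm)

include hπ hπ0 hval in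
/-- a subfield on which the valuation takes values in `v(π)^ℤ`, `v(π) < 1`, has a discrete
valuation ring with uniformiser `π`. -/
theorem isDiscreteValuationRing_sub : IsDiscreteValuationRing (sub A (L := L)) := by
  apply IsDiscreteValuationRing.ofHasUnitMulPowIrreducibleFactorization
  refine ⟨unif A hπ, irreducible_unif A hπ hπ0 hval, ?_⟩
  intro x hx
  obtain ⟨m, u, hu, rfl⟩ := exists_pow_mul_unit A hπ hπ0 hval x hx
  exact ⟨m, ⟨hu.unit, rfl⟩⟩

end Fermat.Agent.GL.Local.ComapDVR
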