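/-
GATE-L / UNRAM-BASE part 2 (helper26).  Consequences of `InertiaField.lean` for the base ring
`R = A ∩ K₀`, `K₀ = ℚ̄^{I_A}` the inertia field of `A | q`:

* `exists_valuation_eq_zpow_of_mem_inertiaField` : `v_A(K₀ˣ) = v_A(q)^ℤ`;
* `not_exists_pow_eq_q` : `q` is not an `ℓ`-th power in `K₀`;
* `baseRing A`, `baseQ`, `exists_pow_mul_unit_baseRing`, `irreducible_baseQ`,
  **`isDiscreteValuationRing_baseRing`** : `R` is a DVR with uniformiser `q`;
* `exists_baseRing_sub_mem_nonunits` : `R → A/𝔪_A` is surjective (same residue field).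
-/
import Fermat.Agent.GL.Local.InertiaField

set_option autoImplicit false

open scoped Pointwise NumberField
open IsDedekindDomain Polynomial
open Fermat.Agent.Common_helper32 Fermat.Agent.S13.Global

namespace Fermat.Agent.GL.Local.InertiaField

section Base

variable (A : ValuationSubring Qb) {q : ℕ} (hq : q.Prime) (hA : (q : Qb) ∈ A.nonunits)

include hq hA in
theorem zpow_q_unit_iff (n : ℤ) :
    ((q : Qb) ^ n ∈ A ∧ ((q : Qb) ^ n)⁻¹ ∈ A) ↔ n = 0 := by
  have hq0 : (q : Qb) ≠ 0 := by exact_mod_cast hq.ne_zero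
  have hv0 : A.valuation (q : Qb) ≠ 0 := (Valuation.ne_zero_iff _).mpr hq0
  have hv1 : A.valuation (q : Qb) < 1 := (A.mem_nonunits_iff).mp hA
  constructor
  · rintro ⟨h1, h2⟩
    rw [← A.valuation_le_one_iff, map_zpow₀] at h1
    rw [← A.valuation_le_one_iff, map_inv₀, map_zpow₀] at h2
    have h3 : A.valuation (q : Qb) ^ n = 1 := by
      apply le_antisymm h1
      have hne : A.valuation (q : Qb) ^ n ≠ 0 := zpow_ne_zero _ hv0
      rwa [inv_le_one₀ (zero_lt_iff.mpr hne)] at h2
    have h4 : A.valuation (q : Qb) ^ n = A.valuation (q : Qb) ^ (0 : ℤ) := by rw [h3, zpow_zero]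
    exact (zpow_right_strictAnti₀ (zero_lt_iff.2 hv0) hv1).injective h4
  · rintro rfl
    simp [A.one_mem]

include hq hA in
/-- valuation form of (U1). -/
theorem exists_valuation_eq_zpow_of_mem_inertiaField {x : Qb} (hx : x ∈ inertiaField A)
    (hx0 : x ≠ 0) : ∃ n : ℤ, A.valuation x = A.valuation (q : Qb) ^ n := by
  obtain ⟨n, h1, h2⟩ := exists_zpow_unit_of_fixed A hq hA x hx0 ((mem_inertiaField_iff A x).mp hx)
  refine ⟨n, ?_⟩
  have hq0 : (q : Qb) ≠ 0 := by exact_mod_cast hq.ne_zero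
  have hv0 : A.valuation (q : Qb) ^ n ≠ 0 :=
    zpow_ne_zero _ ((Valuation.ne_zero_iff _).mpr hq0)
  rw [← A.valuation_le_one_iff, map_div₀, map_zpow₀] at h1
  rw [← A.valuation_le_one_iff, map_inv₀, map_div₀, map_zpow₀] at h2
  have hne : A.valuation x / A.valuation (q : Qb) ^ n ≠ 0 :=
    div_ne_zero ((Valuation.ne_zero_iff _).mpr hx0) hv0
  rw [inv_le_one₀ (zero_lt_iff.mpr hne)] at h2
  have h3 := le_antisymm h1 h2
  rwa [div_eq_one_iff_eq hv0] at h3

include hq hA in
/-- `q` is not an `ℓ`-th power in the inertia field (`ℓ ≥ 2`). -/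
theorem not_exists_pow_eq_q {ℓ : ℕ} (hℓ : 2 ≤ ℓ) {y : Qb} (hy : y ∈ inertiaField A) :
    y ^ ℓ ≠ (q : Qb) := by
  intro h
  have hq0 : (q : Qb) ≠ 0 := by exact_mod_cast hq.ne_zero
  have hy0 : y ≠ 0 := by
    intro h0
    rw [h0, zero_pow (by omega)] at h
    exact hq0 h.symm
  obtain ⟨n, hn⟩ := exists_valuation_eq_zpow_of_mem_inertiaField A hq hA hy hy0
  have hv0 : A.valuation (q : Qb) ≠ 0 := (Valuation.ne_zero_iff _).mpr hq0
  have hv1 : A.valuation (q : Qb) < 1 := (A.mem_nonunits_iff).mp hA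
  have h1 : A.valuation (q : Qb) ^ (n * (ℓ : ℤ)) = A.valuation (q : Qb) ^ (1 : ℤ) := by
    rw [zpow_mul, ← hn, zpow_natCast, ← map_pow, h, zpow_one]
  have h2 := (zpow_right_strictAnti₀ (zero_lt_iff.2 hv0) hv1).injective h1
  have h3 : (ℓ : ℤ) ∣ 1 := ⟨n, by rw [mul_comm]; exact h2.symm⟩
  have h4 : (ℓ : ℤ) ≤ 1 := Int.le_of_dvd one_pos h3
  omega

/-- the valuation ring `R = A ∩ K₀` of the inertia field. -/
noncomputable abbrev baseRing : ValuationSubring (inertiaField A) :=
  A.comap (algebraMap (inertiaField A) Qb)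

theorem mem_baseRing_iff (x : inertiaField A) : x ∈ baseRing A ↔ (x : Qb) ∈ A := Iff.rfl

/-- `q` as an element of `R`. -/
noncomputable def baseQ (q : ℕ) : baseRing A := ⟨(q : inertiaField A), by
  rw [mem_baseRing_iff]
  simp⟩

theorem coe_baseQ : (((baseQ A q : baseRing A) : inertiaField A) : Qb) = (q : Qb) := by
  simp [baseQ]

theorem isUnit_baseRing_iff (x : baseRing A) (hx0 : x ≠ 0) :
    IsUnit x ↔ (((x : inertiaField A) : Qb))⁻¹ ∈ A := by
  constructor
  · intro h
    obtain ⟨y, hy⟩ := h.exists_right_inv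
    have h1 : ((x : inertiaField A) : Qb) * ((y : inertiaField A) : Qb) = 1 := by
      have := congrArg (fun z : baseRing A => ((z : inertiaField A) : Qb)) hy
      simpa using this
    have h2 : (((x : inertiaField A) : Qb))⁻¹ = ((y : inertiaField A) : Qb) :=
      (eq_inv_of_mul_eq_one_right h1).symm
    rw [h2]
    exact y.2
  · intro h
    have hx0' : (x : inertiaField A) ≠ 0 := fun h0 => hx0 (Subtype.ext h0)
    have hmem : (x : inertiaField A)⁻¹ ∈ baseRing A := by
      rw [mem_baseRing_iff]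
      simpa using h
    refine IsUnit.of_mul_eq_one ⟨(x : inertiaField A)⁻¹, hmem⟩ ?_
    apply Subtype.ext
    show (x : inertiaField A) * (x : inertiaField A)⁻¹ = 1
    exact mul_inv_cancel₀ hx0'

include hq hA in
/-- every nonzero element of `R` is `qᵐ` times a unit of `R`. -/
theorem exists_pow_mul_unit_baseRing (x : baseRing A) (hx0 : x ≠ 0) :
    ∃ (m : ℕ) (u : baseRing A), IsUnit u ∧ x = baseQ A q ^ m * u := by
  have hq0 : (q : Qb) ≠ 0 := by exact_mod_cast hq.ne_zero
  have hxQ0 : ((x : inertiaField A) : Qb) ≠ 0 := by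
    intro h0
    apply hx0
    apply Subtype.ext
    apply Subtype.ext
    exact h0
  obtain ⟨n, h1, h2⟩ := exists_zpow_unit_of_fixed A hq hA ((x : inertiaField A) : Qb) hxQ0
    ((mem_inertiaField_iff A _).mp (x : inertiaField A).2)
  -- `n ≥ 0`
  have hn : 0 ≤ n := by
    by_contra hneg
    push Not at hneg
    have h3 : (q : Qb) ^ n ∈ A := by
      have : (q : Qb) ^ n = ((x : inertiaField A) : Qb) * (((x : inertiaField A) : Qb) / (q : Qb) ^ n)⁻¹ := by
        field_simp
      rw [this]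
      exact mul_mem x.2 h2
    have h4 : ((q : Qb) ^ n)⁻¹ ∈ A := by
      rw [← zpow_neg]
      obtain ⟨k, hk⟩ := Int.eq_ofNat_of_zero_le (by omega : 0 ≤ -n)
      rw [hk, zpow_natCast]
      exact pow_mem (natCast_mem A q) k
    have := (zpow_q_unit_iff A hq hA n).mp ⟨h3, h4⟩
    omega
  obtain ⟨m, rfl⟩ := Int.eq_ofNat_of_zero_le hn
  rw [zpow_natCast] at h1 h2
  have hq0' : ((q : ℕ) : inertiaField A) ≠ 0 := by exact_mod_cast hq.ne_zero
  let u0 : inertiaField A := (x : inertiaField A) / (q : inertiaField A) ^ m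
  have hu0 : (u0 : Qb) = ((x : inertiaField A) : Qb) / (q : Qb) ^ m := by
    simp [u0]
  have hu0mem : u0 ∈ baseRing A := by
    rw [mem_baseRing_iff, hu0]
    exact h1
  have hu0ne : (⟨u0, hu0mem⟩ : baseRing A) ≠ 0 := by
    intro h0
    have h00 : u0 = 0 := congrArg Subtype.val h0
    have hx' : (x : inertiaField A) ≠ 0 := fun h => hx0 (Subtype.ext h)
    exact (div_ne_zero hx' (pow_ne_zero m hq0')) h00
  refine ⟨m, ⟨u0, hu0mem⟩, ?_, ?_⟩
  · rw [isUnit_baseRing_iff A _ hu0ne]
    show ((u0 : inertiaField A) : Qb)⁻¹ ∈ A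
    rw [hu0]
    exact h2
  · apply Subtype.ext
    show (x : inertiaField A) = ((baseQ A q : baseRing A) : inertiaField A) ^ m * u0
    have : ((baseQ A q : baseRing A) : inertiaField A) = (q : inertiaField A) := rfl
    rw [this]
    show (x : inertiaField A) = (q : inertiaField A) ^ m * ((x : inertiaField A) / (q : inertiaField A) ^ m)
    field_simp


include hq hA in
theorem not_isUnit_baseQ : ¬ IsUnit (baseQ A q) := by
  have hq0 : (q : Qb) ≠ 0 := by exact_mod_cast hq.ne_zero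
  have hne : baseQ A q ≠ 0 := by
    intro h0
    have := congrArg (fun z : baseRing A => ((z : inertiaField A) : Qb)) h0
    simp only [coe_baseQ] at this
    exact hq0 (by simpa using this)
  rw [isUnit_baseRing_iff A _ hne, coe_baseQ]
  exact (Fermat.Agent.S05.mem_nonunits_iff_inv_notMem hq0).mp hA

include hq hA in
theorem irreducible_baseQ : Irreducible (baseQ A q) := by
  have hq0 : (q : Qb) ≠ 0 := by exact_mod_cast hq.ne_zero
  have hne : baseQ A q ≠ 0 := by
    intro h0
    have := congrArg (fun z : baseRing A => ((z : inertiaField A) : Qb)) h0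
    simp only [coe_baseQ] at this
    exact hq0 (by simpa using this)
  have hnu := not_isUnit_baseQ A hq hA
  refine ⟨hnu, ?_⟩
  intro a b hab
  have ha0 : a ≠ 0 := by
    rintro rfl
    rw [zero_mul] at hab
    exact hne hab
  have hb0 : b ≠ 0 := by
    rintro rfl
    rw [mul_zero] at hab
    exact hne hab
  obtain ⟨i, u, hu, rfl⟩ := exists_pow_mul_unit_baseRing A hq hA a ha0
  obtain ⟨j, u', hu', rfl⟩ := exists_pow_mul_unit_baseRing A hq hA b hb0
  rcases Nat.eq_zero_or_pos i with hi | hi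
  · left
    rw [hi, pow_zero, one_mul]
    exact hu
  rcases Nat.eq_zero_or_pos j with hj | hj
  · right
    rw [hj, pow_zero, one_mul]
    exact hu'
  exfalso
  -- `i, j ≥ 1`: `p = p^(i+j) * (u u')`, so `p` divides `1`
  obtain ⟨i', rfl⟩ : ∃ i', i = i' + 1 := ⟨i - 1, by omega⟩
  obtain ⟨j', rfl⟩ : ∃ j', j = j' + 1 := ⟨j - 1, by omega⟩
  have h1 : baseQ A q * 1 = baseQ A q * (baseQ A q * (baseQ A q ^ i' * baseQ A q ^ j' * (u * u'))) := by
    rw [mul_one]
    conv_lhs => rw [hab]
    ring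
  have h2 := mul_left_cancel₀ hne h1
  exact hnu (IsUnit.of_mul_eq_one _ h2.symm)

include hq hA in
/-- **the base ring `R = A ∩ K₀` is a discrete valuation ring with uniformiser `q`.** -/
theorem isDiscreteValuationRing_baseRing : IsDiscreteValuationRing (baseRing A) := by
  apply IsDiscreteValuationRing.ofHasUnitMulPowIrreducibleFactorization
  refine ⟨baseQ A q, irreducible_baseQ A hq hA, ?_⟩
  intro x hx
  obtain ⟨m, u, hu, rfl⟩ := exists_pow_mul_unit_baseRing A hq hA x hx
  exact ⟨m, ⟨hu.unit, rfl⟩⟩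

include hq hA in
/-- **(U2)** `R → A/𝔪_A` is surjective: the inertia field has the residue field of `A`. -/
theorem exists_baseRing_sub_mem_nonunits (a : Qb) (ha : a ∈ A) :
    ∃ b : baseRing A, a - ((b : inertiaField A) : Qb) ∈ A.nonunits := by
  by_cases hanu : a ∈ A.nonunits
  · exact ⟨0, by simpa using hanu⟩
  · obtain ⟨ζ, N, hN, hζ, hsub⟩ := exists_rootOfUnity_sub_mem_nonunits A hq hA a ha hanu
    have hN0 : N ≠ 0 := fun h => hN (h ▸ dvd_zero q)
    have hζK : ζ ∈ inertiaField A := rootOfUnity_mem_inertiaField A hq hA hN hζ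
    have hζA : ζ ∈ A := (unit_of_pow_eq_one A hN0 hζ).2.1
    exact ⟨⟨⟨ζ, hζK⟩, hζA⟩, hsub⟩

end Base

end Fermat.Agent.GL.Local.InertiaField
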