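/-
GATE-L / UNRAM-BASE part 4 = (U4) TAME LAYER (helper26).  `K₀ = ℚ̄^{I_A}` the inertia field of
`A | q`, `ζ` a primitive `q`-th root of unity, `K₁ = K₀(ζ)`:

* `valuation_one_sub_pow_eq`, `valuation_one_sub_zeta_pow` : `v(1-ζ^k) = v(1-ζ)` (`q ∤ k`),
  `v(1-ζ)^(q-1) = v(q)`;
* `cyclotomic_comp_isEisensteinAt_baseRing`, **`irreducible_cyclotomic_inertiaField`** : `Φ_q` is
  irreducible over `K₀` (Eisenstein at the DVR `R = A ∩ K₀`);
* `minpoly_zeta_inertiaField`, **`finrank_adjoin_zeta`** : `[K₁ : K₀] = q - 1`;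
* **`exists_mem_inertia_apply_zeta`** : the mod-`q` cyclotomic character `I_A → (ℤ/q)ˣ` is onto;
* **`exists_valuation_eq_zpow_of_mem_adjoin_zeta`** : `v(K₁ˣ) = v(1-ζ)^ℤ` (`e = q-1`);
* `isDiscreteValuationRing_tameRing` : `A ∩ K₁` is a DVR with uniformiser `1 - ζ`;
* `geom_sum_sub_natCast_mem_nonunits` : `(1-ζ^k)/(1-ζ) ≡ k mod 𝔪_A` (the tame character).
-/
import Fermat.Agent.GL.Local.InertiaFieldBase
import Fermat.Agent.GL.Local.ComapDVR

set_option autoImplicit false

open scoped Pointwise NumberField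
open Polynomial IntermediateField
open Fermat.Agent.Common_helper32 Fermat.Agent.S13.Global

namespace Fermat.Agent.GL.Local.InertiaField

/-! ### Two general lemmas -/

/-- a finite sum whose nonzero terms have pairwise distinct valuations has the valuation of one of
its nonzero terms. -/
theorem exists_map_sum_eq_of_pairwise_ne {K : Type*} [Field K] {Γ₀ : Type*}
    [LinearOrderedCommGroupWithZero Γ₀] (v : Valuation K Γ₀) {ι : Type*} [DecidableEq ι]
    (s : Finset ι) (f : ι → K) (hs : ∃ i ∈ s, f i ≠ 0)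
    (hne : ∀ i ∈ s, ∀ j ∈ s, i ≠ j → f i ≠ 0 → f j ≠ 0 → v (f i) ≠ v (f j)) :
    ∃ j ∈ s, f j ≠ 0 ∧ v (∑ i ∈ s, f i) = v (f j) := by
  obtain ⟨i₀, hi₀, hfi₀⟩ := hs
  obtain ⟨j, hj, hmax⟩ := Finset.exists_max_image s (fun i => v (f i)) ⟨i₀, hi₀⟩
  have hvj : v (f j) ≠ 0 := by
    intro h0
    have := hmax i₀ hi₀
    rw [h0] at this
    exact hfi₀ ((Valuation.zero_iff v).1 (le_antisymm this zero_le))
  have hfj : f j ≠ 0 := fun h0 => hvj (by rw [h0, Valuation.map_zero])
  have hlt : ∀ i ∈ s \ {j}, v (f i) < v (f j) := by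
    intro i hi
    rw [Finset.mem_sdiff, Finset.mem_singleton] at hi
    refine lt_of_le_of_ne (hmax i hi.1) ?_
    intro heq
    have hfi : f i ≠ 0 := by
      intro h0
      rw [h0, Valuation.map_zero] at heq
      exact hvj heq.symm
    exact hne i hi.1 j hj hi.2 hfi hfj heq
  exact ⟨j, hj, hfj, Valuation.map_sum_eq_of_lt v hj hlt⟩

section Expand

variable {F : Type*} [Field F] {E : Type*} [Field E] [Algebra F E]

/-- elements of a simple algebraic extension `F(α)` are `F`-combinations of `1, β, …, β^(d-1)` for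
any `β` with `F(β) = F(α)`, `d = [F(α):F]`. -/
theorem exists_sum_pow_of_mem_adjoin {α β : E} (hβ : IsIntegral F β) (hαβ : α ∈ F⟮β⟯)
    {x : E} (hx : x ∈ F⟮α⟯) :
    ∃ c : ℕ → F, x = ∑ i ∈ Finset.range (minpoly F β).natDegree, algebraMap F E (c i) * β ^ i := by
  have hle : F⟮α⟯ ≤ F⟮β⟯ := by
    rw [IntermediateField.adjoin_simple_le_iff]
    exact hαβ
  have hx' : x ∈ F⟮β⟯ := hle hx
  have h1 : x ∈ (F⟮β⟯).toSubalgebra := hx'
  rw [IntermediateField.adjoin_simple_toSubalgebra_of_isAlgebraic hβ.isAlgebraic,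
    Algebra.adjoin_singleton_eq_range_aeval] at h1
  obtain ⟨p, rfl⟩ := h1
  have hm : (minpoly F β).Monic := minpoly.monic hβ
  have hdeg : (p %ₘ minpoly F β).natDegree < (minpoly F β).natDegree := by
    apply natDegree_modByMonic_lt p hm
    exact minpoly.ne_one F β
  refine ⟨fun i => (p %ₘ minpoly F β).coeff i, ?_⟩
  have h2 : aeval β p = aeval β (p %ₘ minpoly F β) := by
    conv_lhs => rw [← modByMonic_add_div p (minpoly F β)]
    rw [map_add, map_mul, minpoly.aeval, zero_mul, add_zero]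
  show (aeval β) p = _
  rw [h2, aeval_eq_sum_range' hdeg]
  apply Finset.sum_congr rfl
  intro i _
  rw [Algebra.smul_def]

end Expand


/-! ### Valuation of `1 - ζ` -/

section Zeta

variable (A : ValuationSubring Qb) {q : ℕ} (hq : q.Prime) (hA : (q : Qb) ∈ A.nonunits)
variable {ζ : Qb} (hζ : IsPrimitiveRoot ζ q)

include hq hζ in
theorem zeta_mem : ζ ∈ A ∧ ζ⁻¹ ∈ A := by
  have := unit_of_pow_eq_one A hq.ne_zero hζ.pow_eq_one
  exact ⟨this.2.1, this.2.2⟩

include hq hζ in
/-- `1 - ζ^k` is divisible by `1 - ζ` in `A`. -/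
theorem valuation_one_sub_pow_le (k : ℕ) :
    A.valuation (1 - ζ ^ k) ≤ A.valuation (1 - ζ) := by
  have h1 : 1 - ζ ^ k = (∑ i ∈ Finset.range k, ζ ^ i) * (1 - ζ) := by
    have := geom_sum_mul ζ k
    linear_combination this
  rw [h1, map_mul]
  have h2 : A.valuation (∑ i ∈ Finset.range k, ζ ^ i) ≤ 1 := by
    rw [A.valuation_le_one_iff]
    exact sum_mem fun i _ => pow_mem (zeta_mem A hq hζ).1 i
  calc A.valuation (∑ i ∈ Finset.range k, ζ ^ i) * A.valuation (1 - ζ)
      ≤ 1 * A.valuation (1 - ζ) := by gcongr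
    _ = A.valuation (1 - ζ) := one_mul _

include hq hζ in
theorem valuation_one_sub_pow_eq {k : ℕ} (hk : ¬ q ∣ k) :
    A.valuation (1 - ζ ^ k) = A.valuation (1 - ζ) := by
  apply le_antisymm (valuation_one_sub_pow_le A hq hζ k)
  have hcop : Nat.Coprime k q := (Nat.Coprime.symm ((Nat.Prime.coprime_iff_not_dvd hq).mpr hk))
  obtain ⟨m, -, hm⟩ := Nat.exists_mul_mod_eq_one_of_coprime hcop hq.one_lt
  have hζk : IsPrimitiveRoot (ζ ^ k) q := hζ.pow_of_coprime k hcop
  have h1 : (ζ ^ k) ^ m = ζ := by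
    rw [← pow_mul, ← Nat.mod_add_div (k * m) q, hm, pow_add, pow_one, pow_mul, hζ.pow_eq_one,
      one_pow, mul_one]
  have h2 := valuation_one_sub_pow_le A hq hζk m
  rwa [h1] at h2


include hq hζ in
/-- `v(1-ζ)^(q-1) = v(q)`. -/
theorem valuation_one_sub_zeta_pow :
    A.valuation (1 - ζ) ^ (q - 1) = A.valuation (q : Qb) := by
  obtain ⟨n, rfl⟩ : ∃ n, q = n + 1 := ⟨q - 1, by have := hq.pos; omega⟩
  have h1 := hζ.prod_one_sub_pow_eq_order
  have h2 := congrArg A.valuation h1
  rw [map_prod] at h2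
  have h3 : ∀ k ∈ Finset.range n, A.valuation (1 - ζ ^ (k + 1)) = A.valuation (1 - ζ) := by
    intro k hk
    apply valuation_one_sub_pow_eq A hq hζ
    intro hdvd
    have := Nat.le_of_dvd (Nat.succ_pos k) hdvd
    rw [Finset.mem_range] at hk
    omega
  rw [Finset.prod_congr rfl h3, Finset.prod_const, Finset.card_range] at h2
  rw [Nat.add_sub_cancel, h2]
  push_cast
  rfl

include hq hA hζ in
theorem one_sub_zeta_mem_nonunits : 1 - ζ ∈ A.nonunits := by
  rw [A.mem_nonunits_iff]
  by_contra hcon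
  push Not at hcon
  have h1 : A.valuation (1 - ζ) = 1 := by
    apply le_antisymm _ hcon
    rw [A.valuation_le_one_iff]
    exact sub_mem A.one_mem (zeta_mem A hq hζ).1
  have h2 := valuation_one_sub_zeta_pow A hq hζ
  rw [h1, one_pow] at h2
  have h3 := (A.mem_nonunits_iff).mp hA
  rw [← h2] at h3
  exact lt_irrefl _ h3

include hq hζ in
theorem one_sub_zeta_ne_zero : 1 - ζ ≠ 0 := by
  intro h
  have h1 : ζ = 1 := (sub_eq_zero.mp h).symm
  exact hζ.ne_one hq.one_lt h1


/-! ### Eisenstein -/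

include hq hA in
theorem maximalIdeal_baseRing_eq :
    IsLocalRing.maximalIdeal (baseRing A) = Ideal.span {baseQ A q} := by
  have := isDiscreteValuationRing_baseRing A hq hA
  exact (IsDiscreteValuationRing.irreducible_iff_uniformizer _).mp (irreducible_baseQ A hq hA)

theorem algebraMap_baseQ : algebraMap (baseRing A) (inertiaField A) (baseQ A q) = (q : inertiaField A) :=
  rfl

theorem natCast_baseRing (n : ℕ) : ((n : baseRing A) : inertiaField A) = (n : inertiaField A) := by
  simp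

theorem baseQ_eq_natCast : baseQ A q = (q : baseRing A) := by
  apply Subtype.ext
  rw [natCast_baseRing]
  rfl

include hq hA in
/-- `Φ_q(X+1)` is Eisenstein at the maximal ideal of the base ring `R`. -/
theorem cyclotomic_comp_isEisensteinAt_baseRing :
    ((cyclotomic q (baseRing A)).comp (X + 1)).IsEisensteinAt
      (IsLocalRing.maximalIdeal (baseRing A)) := by
  have : Fact q.Prime := ⟨hq⟩
  have := isDiscreteValuationRing_baseRing A hq hA
  have hZ := cyclotomic_comp_X_add_one_isEisensteinAt q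
  have hmap : ((cyclotomic q ℤ).comp (X + 1)).map (Int.castRingHom (baseRing A)) =
      (cyclotomic q (baseRing A)).comp (X + 1) := by
    rw [Polynomial.map_comp, map_cyclotomic]
    simp
  have hmonic : ((cyclotomic q (baseRing A)).comp (X + 1)).Monic := by
    have : (X + 1 : (baseRing A)[X]) = X + C 1 := by simp
    rw [this]
    exact (cyclotomic.monic q _).comp_X_add_C 1
  have hmonicZ : ((cyclotomic q ℤ).comp (X + 1)).Monic := by
    have : (X + 1 : ℤ[X]) = X + C 1 := by simp
    rw [this]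
    exact (cyclotomic.monic q _).comp_X_add_C 1
  have hdeg : ((cyclotomic q (baseRing A)).comp (X + 1)).natDegree =
      ((cyclotomic q ℤ).comp (X + 1)).natDegree := by
    rw [← hmap]
    exact hmonicZ.natDegree_map _
  have hqmem : (q : baseRing A) ∈ IsLocalRing.maximalIdeal (baseRing A) := by
    rw [maximalIdeal_baseRing_eq A hq hA, ← baseQ_eq_natCast]
    exact Ideal.subset_span rfl
  refine ⟨?_, ?_, ?_⟩
  · rw [hmonic.leadingCoeff]
    exact fun h => (Ideal.IsPrime.ne_top inferInstance) ((Ideal.eq_top_iff_one _).mpr h)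
  · intro n hn
    rw [hdeg] at hn
    have h1 := hZ.mem hn
    rw [← hmap, coeff_map]
    rw [Ideal.mem_span_singleton] at h1
    obtain ⟨c, hc⟩ := h1
    rw [hc, map_mul, eq_intCast, eq_intCast, Int.cast_natCast]
    exact Ideal.mul_mem_right _ _ hqmem
  · -- constant coefficient is `q ∉ 𝔪²`
    have hc0 : ((cyclotomic q (baseRing A)).comp (X + 1)).coeff 0 = (q : baseRing A) := by
      rw [coeff_zero_eq_eval_zero, eval_comp]
      simp [eval_one_cyclotomic_prime]
    rw [hc0, maximalIdeal_baseRing_eq A hq hA, Ideal.span_singleton_pow, Ideal.mem_span_singleton,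
      ← baseQ_eq_natCast]
    rintro ⟨c, hc⟩
    have hne : baseQ A q ≠ 0 := (irreducible_baseQ A hq hA).ne_zero
    have h1 : baseQ A q * 1 = baseQ A q * (baseQ A q * c) := by
      rw [mul_one]
      conv_lhs => rw [hc]
      ring
    have h2 := mul_left_cancel₀ hne h1
    exact (irreducible_baseQ A hq hA).not_isUnit (IsUnit.of_mul_eq_one _ h2.symm)


include hq hA in
/-- **(U4a)** the `q`-th cyclotomic polynomial is irreducible over the inertia field. -/
theorem irreducible_cyclotomic_inertiaField : Irreducible (cyclotomic q (inertiaField A)) := by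
  have : Fact q.Prime := ⟨hq⟩
  have hdvr := isDiscreteValuationRing_baseRing A hq hA
  have hEis := cyclotomic_comp_isEisensteinAt_baseRing A hq hA
  have hmonic : ((cyclotomic q (baseRing A)).comp (X + 1)).Monic := by
    have : (X + 1 : (baseRing A)[X]) = X + C 1 := by simp
    rw [this]
    exact (cyclotomic.monic q _).comp_X_add_C 1
  have hdeg : 0 < ((cyclotomic q (baseRing A)).comp (X + 1)).natDegree := by
    have : (X + 1 : (baseRing A)[X]) = X + C 1 := by simp
    rw [this, natDegree_comp, natDegree_X_add_C, mul_one, natDegree_cyclotomic,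
      Nat.totient_prime hq]
    have := hq.two_le
    omega
  have hirrR : Irreducible ((cyclotomic q (baseRing A)).comp (X + 1)) :=
    hEis.irreducible inferInstance hmonic.isPrimitive hdeg
  have hirrK := (Monic.irreducible_iff_irreducible_map_fraction_map
    (K := inertiaField A) hmonic).mp hirrR
  have hmap : ((cyclotomic q (baseRing A)).comp (X + 1)).map
      (algebraMap (baseRing A) (inertiaField A)) =
      algEquivAevalXAddC (1 : inertiaField A) (cyclotomic q (inertiaField A)) := by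
    rw [Polynomial.map_comp, map_cyclotomic, algEquivAevalXAddC_apply]
    simp [aeval_def, eval₂_eq_eval_map, comp]
  rw [hmap] at hirrK
  exact (MulEquiv.irreducible_iff (algEquivAevalXAddC (1 : inertiaField A)).toMulEquiv).mp hirrK


include hq hA in
theorem minpoly_zeta_inertiaField {ζ : Qb} (hζ : IsPrimitiveRoot ζ q) :
    minpoly (inertiaField A) ζ = cyclotomic q (inertiaField A) := by
  have hirr := irreducible_cyclotomic_inertiaField A hq hA
  have hroot : aeval ζ (cyclotomic q (inertiaField A)) = 0 := by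
    rw [aeval_def, eval₂_eq_eval_map, map_cyclotomic]
    exact hζ.isRoot_cyclotomic hq.pos
  exact (minpoly.eq_of_irreducible_of_monic hirr hroot (cyclotomic.monic q _)).symm

include hq hA in
/-- `[K₀(ζ_q) : K₀] = q - 1`. -/
theorem finrank_adjoin_zeta {ζ : Qb} (hζ : IsPrimitiveRoot ζ q) :
    Module.finrank (inertiaField A) (IntermediateField.adjoin (inertiaField A) {ζ}) = q - 1 := by
  have hint : IsIntegral (inertiaField A) ζ := Algebra.IsIntegral.isIntegral ζ
  rw [IntermediateField.adjoin.finrank hint, minpoly_zeta_inertiaField A hq hA hζ,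
    natDegree_cyclotomic, Nat.totient_prime hq]

include hq hA in
/-- **(U4c)** the mod-`q` cyclotomic character is surjective on the inertia group. -/
theorem exists_mem_inertia_apply_zeta {ζ : Qb} (hζ : IsPrimitiveRoot ζ q) {k : ℕ} (hk : ¬ q ∣ k) :
    ∃ σ ∈ A.inertiaSubgroupIn ℚ, σ ζ = ζ ^ k := by
  have hcop : Nat.Coprime k q := (Nat.Coprime.symm ((Nat.Prime.coprime_iff_not_dvd hq).mpr hk))
  have hζk : IsPrimitiveRoot (ζ ^ k) q := hζ.pow_of_coprime k hcop
  have hroot : aeval (ζ ^ k) (minpoly (inertiaField A) ζ) = 0 := by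
    rw [minpoly_zeta_inertiaField A hq hA hζ, aeval_def, eval₂_eq_eval_map, map_cyclotomic]
    exact hζk.isRoot_cyclotomic hq.pos
  have hnormal : Normal (inertiaField A) Qb := Normal.tower_top_of_normal ℚ (inertiaField A) Qb
  have halg : IsAlgebraic (inertiaField A) ζ := Algebra.IsAlgebraic.isAlgebraic ζ
  obtain ⟨σ, hσ⟩ := minpoly.exists_algEquiv_of_root' halg hroot
  refine ⟨σ.restrictScalars ℚ, ?_, hσ⟩
  rw [← fixingSubgroup_inertiaField, IntermediateField.mem_fixingSubgroup_iff]
  intro x hx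
  exact σ.commutes ⟨x, hx⟩


/-! ### The value group of `K₀(ζ)` -/

include hq hA hζ in
theorem natDegree_minpoly_one_sub_zeta :
    (minpoly (inertiaField A) (1 - ζ)).natDegree = q - 1 := by
  have hint : IsIntegral (inertiaField A) (1 - ζ) := Algebra.IsIntegral.isIntegral _
  rw [← IntermediateField.adjoin.finrank hint, ← finrank_adjoin_zeta A hq hA hζ]
  have heq : (inertiaField A)⟮1 - ζ⟯ = (inertiaField A)⟮ζ⟯ := by
    apply le_antisymm
    · rw [IntermediateField.adjoin_simple_le_iff]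
      exact sub_mem (one_mem _) (IntermediateField.mem_adjoin_simple_self _ ζ)
    · rw [IntermediateField.adjoin_simple_le_iff]
      have h1 : (1 - ζ) ∈ (inertiaField A)⟮1 - ζ⟯ := IntermediateField.mem_adjoin_simple_self _ _
      have h2 : (1 : Qb) - (1 - ζ) ∈ (inertiaField A)⟮1 - ζ⟯ := sub_mem (one_mem _) h1
      rwa [sub_sub_cancel] at h2
  rw [heq]

include hq hA hζ in
/-- **(U4b)** the value group of `K₁ = K₀(ζ_q)` is generated by `v(1 - ζ_q)`. -/
theorem exists_valuation_eq_zpow_of_mem_adjoin_zeta {x : Qb}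
    (hx : x ∈ (inertiaField A)⟮ζ⟯) (hx0 : x ≠ 0) :
    ∃ n : ℤ, A.valuation x = A.valuation (1 - ζ) ^ n := by
  classical
  have hint : IsIntegral (inertiaField A) (1 - ζ) := Algebra.IsIntegral.isIntegral _
  have hζmem : ζ ∈ (inertiaField A)⟮1 - ζ⟯ := by
    have h1 : (1 - ζ) ∈ (inertiaField A)⟮1 - ζ⟯ := IntermediateField.mem_adjoin_simple_self _ _
    have h2 : (1 : Qb) - (1 - ζ) ∈ (inertiaField A)⟮1 - ζ⟯ := sub_mem (one_mem _) h1
    rwa [sub_sub_cancel] at h2
  obtain ⟨c, hc⟩ := exists_sum_pow_of_mem_adjoin hint hζmem hx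
  rw [natDegree_minpoly_one_sub_zeta A hq hA hζ] at hc
  set π := 1 - ζ with hπ
  have hπ0 : π ≠ 0 := one_sub_zeta_ne_zero hq hζ
  have hvπ0 : A.valuation π ≠ 0 := (Valuation.ne_zero_iff _).mpr hπ0
  have hvπ1 : A.valuation π < 1 := (A.mem_nonunits_iff).mp (one_sub_zeta_mem_nonunits A hq hA hζ)
  have hinj := (zpow_right_strictAnti₀ (zero_lt_iff.2 hvπ0) hvπ1).injective
  -- valuation of each nonzero term
  have hterm : ∀ i : ℕ, c i ≠ 0 → ∃ n : ℤ,
      A.valuation (algebraMap (inertiaField A) Qb (c i) * π ^ i) =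
        A.valuation π ^ (((q - 1 : ℕ) : ℤ) * n + i) := by
    intro i hci
    have hci' : ((c i : inertiaField A) : Qb) ≠ 0 := by
      intro h0
      exact hci (Subtype.ext h0)
    obtain ⟨n, hn⟩ := exists_valuation_eq_zpow_of_mem_inertiaField A hq hA (c i).2 hci'
    refine ⟨n, ?_⟩
    rw [map_mul, map_pow]
    show A.valuation ((c i : inertiaField A) : Qb) * _ = _
    rw [hn, ← valuation_one_sub_zeta_pow A hq hζ, ← zpow_natCast (A.valuation π) (q - 1),
      ← zpow_mul, ← zpow_natCast (A.valuation π) i, ← zpow_add₀ hvπ0]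
  -- some coefficient is nonzero
  have hex : ∃ i ∈ Finset.range (q - 1),
      algebraMap (inertiaField A) Qb (c i) * π ^ i ≠ 0 := by
    by_contra hcon
    push Not at hcon
    apply hx0
    rw [hc]
    exact Finset.sum_eq_zero hcon
  have hne : ∀ i ∈ Finset.range (q - 1), ∀ j ∈ Finset.range (q - 1), i ≠ j →
      algebraMap (inertiaField A) Qb (c i) * π ^ i ≠ 0 →
      algebraMap (inertiaField A) Qb (c j) * π ^ j ≠ 0 →
      A.valuation (algebraMap (inertiaField A) Qb (c i) * π ^ i) ≠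
        A.valuation (algebraMap (inertiaField A) Qb (c j) * π ^ j) := by
    intro i hi j hj hij hti htj heq
    have hci : c i ≠ 0 := by
      rintro h0
      rw [h0, map_zero, zero_mul] at hti
      exact hti rfl
    have hcj : c j ≠ 0 := by
      rintro h0
      rw [h0, map_zero, zero_mul] at htj
      exact htj rfl
    obtain ⟨n, hn⟩ := hterm i hci
    obtain ⟨m, hm⟩ := hterm j hcj
    rw [hn, hm] at heq
    have h1 := hinj heq
    rw [Finset.mem_range] at hi hj
    apply hij
    have h2 : ((q - 1 : ℕ) : ℤ) * (n - m) = (j : ℤ) - i := by linarith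
    have hi' : (i : ℤ) < ((q - 1 : ℕ) : ℤ) := by exact_mod_cast hi
    have hj' : (j : ℤ) < ((q - 1 : ℕ) : ℤ) := by exact_mod_cast hj
    have h3 : n - m = 0 := by
      by_contra hnm
      rcases lt_or_gt_of_ne hnm with h | h
      · have : ((q - 1 : ℕ) : ℤ) * (n - m) ≤ ((q - 1 : ℕ) : ℤ) * (-1) :=
          mul_le_mul_of_nonneg_left (by omega) (by positivity)
        omega
      · have : ((q - 1 : ℕ) : ℤ) * 1 ≤ ((q - 1 : ℕ) : ℤ) * (n - m) :=
          mul_le_mul_of_nonneg_left (by omega) (by positivity)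
        omega
    rw [h3, mul_zero] at h2
    omega
  obtain ⟨j, hj, htj, hval⟩ := exists_map_sum_eq_of_pairwise_ne A.valuation
    (Finset.range (q - 1)) (fun i => algebraMap (inertiaField A) Qb (c i) * π ^ i) hex hne
  have hcj : c j ≠ 0 := by
    rintro h0
    simp only [h0, map_zero, zero_mul, ne_eq, not_true_eq_false] at htj
  obtain ⟨n, hn⟩ := hterm j hcj
  exact ⟨_, by rw [hc, hval, hn]⟩


/-! ### The tame ring `A ∩ K₀(ζ)` and the tame character -/

/-- the tame layer `K₁ = K₀(ζ)`. -/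
noncomputable abbrev tameField (ζ : Qb) : IntermediateField (inertiaField A) Qb := (inertiaField A)⟮ζ⟯

/-- the valuation ring `A ∩ K₁` of the tame layer. -/
noncomputable abbrev tameRing (ζ : Qb) : ValuationSubring (tameField A ζ) :=
  ComapDVR.sub A (L := tameField A ζ)

/-- `1 - ζ` as an element of the tame layer. -/
noncomputable def tameUnif (ζ : Qb) : tameField A ζ :=
  ⟨1 - ζ, sub_mem (one_mem _) (IntermediateField.mem_adjoin_simple_self _ ζ)⟩

theorem algebraMap_tameUnif (ζ : Qb) : algebraMap (tameField A ζ) Qb (tameUnif A ζ) = 1 - ζ := rfl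

include hq hA hζ in
/-- **`A ∩ K₀(ζ_q)` is a discrete valuation ring with uniformiser `1 - ζ_q`.** -/
theorem isDiscreteValuationRing_tameRing : IsDiscreteValuationRing (tameRing A ζ) := by
  refine ComapDVR.isDiscreteValuationRing_sub A (L := tameField A ζ) (π := tameUnif A ζ)
    (one_sub_zeta_mem_nonunits A hq hA hζ) ?_ ?_
  · intro h
    exact one_sub_zeta_ne_zero hq hζ (congrArg Subtype.val h)
  · intro x hx
    have hx0 : (x : Qb) ≠ 0 := fun h => hx (Subtype.ext h)
    exact exists_valuation_eq_zpow_of_mem_adjoin_zeta A hq hA hζ x.2 hx0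

include hq hA hζ in
theorem irreducible_tameUnif :
    Irreducible (ComapDVR.unif A (L := tameField A ζ) (π := tameUnif A ζ)
      (one_sub_zeta_mem_nonunits A hq hA hζ)) := by
  refine ComapDVR.irreducible_unif A (L := tameField A ζ) (π := tameUnif A ζ)
    (one_sub_zeta_mem_nonunits A hq hA hζ) ?_ ?_
  · intro h
    exact one_sub_zeta_ne_zero hq hζ (congrArg Subtype.val h)
  · intro x hx
    have hx0 : (x : Qb) ≠ 0 := fun h => hx (Subtype.ext h)
    exact exists_valuation_eq_zpow_of_mem_adjoin_zeta A hq hA hζ x.2 hx0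

theorem one_sub_pow_eq_geom_sum_mul (ζ : Qb) (k : ℕ) :
    1 - ζ ^ k = (∑ i ∈ Finset.range k, ζ ^ i) * (1 - ζ) := by
  have := geom_sum_mul ζ k
  linear_combination this

include hq hA hζ in
/-- the tame character: `(1 - ζ^k)/(1 - ζ) = 1 + ζ + … + ζ^(k-1) ≡ k` modulo `𝔪_A`. -/
theorem geom_sum_sub_natCast_mem_nonunits (k : ℕ) :
    (∑ i ∈ Finset.range k, ζ ^ i) - (k : Qb) ∈ A.nonunits := by
  have h1 : (∑ i ∈ Finset.range k, ζ ^ i) - (k : Qb) = ∑ i ∈ Finset.range k, (ζ ^ i - 1) := by
    rw [Finset.sum_sub_distrib]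
    simp
  rw [h1]
  refine sum_mem fun i _ => ?_
  have h2 : ζ ^ i - 1 = -(1 - ζ ^ i) := by ring
  rw [h2]
  apply neg_mem
  rw [A.mem_nonunits_iff]
  exact lt_of_le_of_lt (valuation_one_sub_pow_le A hq hζ i)
    ((A.mem_nonunits_iff).mp (one_sub_zeta_mem_nonunits A hq hA hζ))

include hq hA hζ in
/-- if `σ ζ = ζ^k` then `σ(1-ζ)/(1-ζ) ≡ k` modulo `𝔪_A`. -/
theorem apply_one_sub_zeta_div_sub_natCast_mem_nonunits {σ : GQ} {k : ℕ} (hσ : σ ζ = ζ ^ k) :
    σ (1 - ζ) / (1 - ζ) - (k : Qb) ∈ A.nonunits := by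
  have h0 := one_sub_zeta_ne_zero hq hζ
  have h1 : σ (1 - ζ) / (1 - ζ) = ∑ i ∈ Finset.range k, ζ ^ i := by
    rw [map_sub, map_one, hσ, one_sub_pow_eq_geom_sum_mul, mul_div_assoc, div_self h0, mul_one]
  rw [h1]
  exact geom_sum_sub_natCast_mem_nonunits A hq hA hζ k

end Zeta

end Fermat.Agent.GL.Local.InertiaField
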