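/-
GATE-L / UNRAM-BASE part 5 = (U5) HENSELIAN UNIQUENESS (helper26).  `A | q` a valuation subring of
`ℚ̄`, `K₀ = ℚ̄^{I_A}` its inertia field: `A` is the ONLY valuation subring of `ℚ̄` inducing `A ∩ K₀`
on `K₀` (`eq_of_forall_mem_inertiaField_iff`); more generally for every intermediate field
`K₀ ⊂ L` (`eq_of_forall_mem_iff_of_le`).  Proof: primes of `ℤ̄` over the same prime of the
`I_A`-invariants are `I_A`-conjugate (S13 `exists_smul_eq_of_under_eq`), and `I_A ⊂ D_A` stabilises
the centre of `A`.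
-/
import Fermat.Agent.GL.Local.InertiaFieldBase

set_option autoImplicit false

open scoped Pointwise NumberField
open Fermat.Agent.Common_helper32 Fermat.Agent.S13.Global

namespace Fermat.Agent.GL.Local.InertiaField

attribute [local instance] topZb discreteTopology_Zb continuousSMul_Zb

section Hensel

variable (A : ValuationSubring Qb) {q : ℕ} (hq : q.Prime) (hA : (q : Qb) ∈ A.nonunits)

/-- the inertia group stabilises the centre of `A` on `ℤ̄`. -/
theorem smul_centerIdeal_of_mem_inertia {σ : GQ} (hσ : σ ∈ A.inertiaSubgroupIn ℚ) :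
    σ • centerIdeal A = centerIdeal A := by
  ext b
  rw [Ideal.mem_pointwise_smul_iff_inv_smul_mem, mem_centerIdeal, mem_centerIdeal]
  have hσ' : σ⁻¹ ∈ A.inertiaSubgroupIn ℚ := inv_mem hσ
  exact Fermat.Agent.S05.apply_mem_nonunits_iff_of_mem_inertiaSubgroupIn hσ' (b : Qb)

include hq hA in
/-- two valuation subrings of `ℚ̄` over `q` with the same centre on `ℤ̄` are equal. -/
theorem eq_of_centerIdeal_eq (B : ValuationSubring Qb) (hB : (q : Qb) ∈ B.nonunits)
    (h : centerIdeal B = centerIdeal A) : B = A := by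
  have key : ∀ (A₁ A₂ : ValuationSubring Qb), (q : Qb) ∈ A₁.nonunits →
      centerIdeal A₁ = centerIdeal A₂ → ∀ a ∈ A₁, a ∈ A₂ := by
    intro A₁ A₂ h1 hc a ha
    obtain ⟨s, t, hs, ht, hsA, hst⟩ := exists_integral_fraction A₁ q hq h1 a ha (isAlgebraic_int a)
    have hs2 : s ∉ A₂.nonunits := by
      have : (⟨s, hs⟩ : Zb) ∉ centerIdeal A₁ := by
        rw [mem_centerIdeal]
        exact hsA
      rw [hc, mem_centerIdeal] at this
      exact this
    have hsmem : s ∈ A₂ := isIntegral_mem_valuationSubring A₂ s hs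
    have htmem : t ∈ A₂ := isIntegral_mem_valuationSubring A₂ t ht
    have hs0 : s ≠ 0 := by
      rintro rfl
      exact hs2 (A₂.nonunits.zero_mem)
    have hsinv : s⁻¹ ∈ A₂ := by
      by_contra hcon
      exact hs2 ((Fermat.Agent.S05.mem_nonunits_iff_inv_notMem hs0).mpr hcon)
    have ha_eq : a = t * s⁻¹ := by
      rw [← hst]
      field_simp
    rw [ha_eq]
    exact mul_mem htmem hsinv
  apply le_antisymm
  · exact fun a ha => key B A hB h a ha
  · exact fun a ha => key A B hA h.symm a ha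

include hq hA in
/-- **(U5)** `A` is the only valuation subring of `ℚ̄` which induces `A ∩ K₀` on the inertia
field `K₀`. -/
theorem eq_of_forall_mem_inertiaField_iff (B : ValuationSubring Qb)
    (h : ∀ x ∈ inertiaField A, x ∈ B ↔ x ∈ A) : B = A := by
  have hq0 : (q : Qb) ≠ 0 := by exact_mod_cast hq.ne_zero
  have hqK : (q : Qb) ∈ inertiaField A := natCast_mem _ q
  have hnu : ∀ x ∈ inertiaField A, x ∈ B.nonunits ↔ x ∈ A.nonunits := by
    intro x hx
    by_cases hx0 : x = 0
    · subst hx0
      simp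
    · rw [Fermat.Agent.S05.mem_nonunits_iff_inv_notMem hx0,
        Fermat.Agent.S05.mem_nonunits_iff_inv_notMem hx0, h _ (inv_mem hx)]
  have hB : (q : Qb) ∈ B.nonunits := (hnu _ hqK).mpr hA
  apply eq_of_centerIdeal_eq A hq hA B hB
  have hclosed := isClosed_inertiaSubgroupIn A
  have hiff : ∀ x : Zb, (∀ g ∈ A.inertiaSubgroupIn ℚ, g • x = x) →
      (x ∈ centerIdeal A ↔ x ∈ centerIdeal B) := by
    intro x hx
    have hxK : (x : Qb) ∈ inertiaField A := by
      rw [mem_inertiaField_iff]
      intro σ hσ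
      exact congrArg Subtype.val (hx σ hσ)
    rw [mem_centerIdeal, mem_centerIdeal]
    exact (hnu _ hxK).symm
  obtain ⟨g, hg, hgQ⟩ := exists_smul_eq_of_under_eq (A.inertiaSubgroupIn ℚ) hclosed
    (centerIdeal A) (centerIdeal B) hiff
  rw [hgQ, smul_centerIdeal_of_mem_inertia A hg]

include hq hA in
/-- the same for every field between `K₀` and `ℚ̄`, e.g. the tame layer `K₀(ζ_q)`. -/
theorem eq_of_forall_mem_iff_of_le (L : IntermediateField ℚ Qb) (hL : inertiaField A ≤ L)
    (B : ValuationSubring Qb) (h : ∀ x ∈ L, x ∈ B ↔ x ∈ A) : B = A :=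
  eq_of_forall_mem_inertiaField_iff A hq hA B fun x hx => h x (hL hx)

end Hensel

end Fermat.Agent.GL.Local.InertiaField
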