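/-
GATE-L / PREP (helper54): regularity of the level-`q²` model at a supersingular point from
THICKNESS ONE at level `q` — the abstract commutative-algebra core (Mathlib only).

Context (board 2391 / 2405 / 2418).  `W` an unramified DVR with uniformiser `π = q`,
`a ∈ 𝔽_{q²}` supersingular, `x = j - ã`, `z = j(qτ) - c̃`, `y = j(q²τ) - ã`.  Kronecker's congruence
gives `Φ_q(ã + X, c̃ + Z) = (X^q - Z)(X - Z^q) + π ψ(X,Z)`; both `x` and `y` are roots of
`Φ_q(ã + ·, c̃ + z)` (symmetry of `Φ_q`; `y ≠ x` is "no backtracking").  Thickness one at level `q`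
says that `ψ(x,z)` is a unit.  Then `z` and `π` lie in the ideal `(x, y)`, so the maximal ideal of
the local ring is generated by the two elements `x, y`: the local ring is regular of dimension 2.

Everything is stated for explicit elements of a local domain `B`; no polynomial ring in two
variables is needed (`ψ` is a one-variable polynomial over `B`, its coefficients may involve `z`).
-/
import Mathlib

set_option autoImplicit false

namespace Fermat.Agent.GL.Local.RegOfThick

open Finset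

variable {B : Type*} [CommRing B]

/-- the complete homogeneous sum `∑_{i < n} x^i y^(n-1-i)` lies in `(x, y)` for `n ≥ 2`. -/
theorem geomSum_mem_span_pair (x y : B) {n : ℕ} (hn : 2 ≤ n) :
    (∑ i ∈ range n, x ^ i * y ^ (n - 1 - i)) ∈ Ideal.span ({x, y} : Set B) := by
  refine Ideal.sum_mem _ fun i hi => ?_
  have hi' : i < n := mem_range.mp hi
  have hx : x ∈ Ideal.span ({x, y} : Set B) := Ideal.subset_span (by simp)
  have hy : y ∈ Ideal.span ({x, y} : Set B) := Ideal.subset_span (by simp)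
  rcases Nat.eq_zero_or_pos i with h0 | h0
  · -- `i = 0`: the factor `y ^ (n - 1)` with `n - 1 ≥ 1`
    subst h0
    have : n - 1 - 0 = (n - 2) + 1 := by omega
    rw [this, pow_succ]
    exact Ideal.mul_mem_left _ _ (Ideal.mul_mem_left _ _ hy)
  · obtain ⟨k, rfl⟩ : ∃ k, i = k + 1 := ⟨i - 1, by omega⟩
    rw [pow_succ]
    exact Ideal.mul_mem_right _ _ (Ideal.mul_mem_left _ _ hx)

/-- **The backtracking identity.**  If `x ≠ y` are two roots of
`(X^q - z)(X - z^q) + π ψ(X)` in a domain, then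
`z = h_q(x,y) - z^q h_{q-1}(x,y) + π ψ'`, where `h_n` are the complete homogeneous sums and
`ψ'` is the divided difference of `ψ`. -/
theorem backtracking_identity [IsDomain B] {q : ℕ} {x y z π ψx ψy ψ' : B}
    (h1 : (x ^ q - z) * (x - z ^ q) + π * ψx = 0)
    (h2 : (y ^ q - z) * (y - z ^ q) + π * ψy = 0)
    (h3 : ψx - ψy = (x - y) * ψ') (hxy : x ≠ y) :
    z = (∑ i ∈ range (q + 1), x ^ i * y ^ (q + 1 - 1 - i))
        - z ^ q * (∑ i ∈ range q, x ^ i * y ^ (q - 1 - i)) + π * ψ' := by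
  have e1 := geom_sum₂_mul x y (q + 1)
  have e2 := geom_sum₂_mul x y q
  set S1 := ∑ i ∈ range (q + 1), x ^ i * y ^ (q + 1 - 1 - i) with hS1
  set S0 := ∑ i ∈ range q, x ^ i * y ^ (q - 1 - i) with hS0
  have key : (x - y) * (S1 - z ^ q * S0 + π * ψ' - z) = 0 := by
    have : (x - y) * (S1 - z ^ q * S0 + π * ψ' - z)
        = S1 * (x - y) - z ^ q * (S0 * (x - y)) + π * ((x - y) * ψ') - z * (x - y) := by ring
    rw [this, e1, e2, ← h3]
    have : x ^ (q + 1) - y ^ (q + 1) - z ^ q * (x ^ q - y ^ q) + π * (ψx - ψy) - z * (x - y)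
        = ((x ^ q - z) * (x - z ^ q) + π * ψx) - ((y ^ q - z) * (y - z ^ q) + π * ψy) := by ring
    rw [this, h1, h2, sub_zero]
  rcases mul_eq_zero.mp key with h | h
  · exact absurd (sub_eq_zero.mp h) hxy
  · exact (sub_eq_zero.mp h).symm

variable [IsLocalRing B]

/-- **Regularity from thickness one (element form).**  In a local domain `B`, let `x ≠ y` be two
roots of `(X^q - z)(X - z^q) + π ψ(X)` with `z, π` in the maximal ideal, `q ≥ 2`, and `ψ(x)` a
UNIT (thickness one at level `q`).  Then `z` and `π` lie in the ideal `(x, y)`. -/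
theorem mem_span_pair_of_thick [IsDomain B] {q : ℕ} (hq : 2 ≤ q) {x y z π ψx ψy ψ' : B}
    (h1 : (x ^ q - z) * (x - z ^ q) + π * ψx = 0)
    (h2 : (y ^ q - z) * (y - z ^ q) + π * ψy = 0)
    (h3 : ψx - ψy = (x - y) * ψ') (hxy : x ≠ y)
    (hz : z ∈ IsLocalRing.maximalIdeal B) (hψ : IsUnit ψx) :
    z ∈ Ideal.span ({x, y} : Set B) ∧ π ∈ Ideal.span ({x, y} : Set B) := by
  set I : Ideal B := Ideal.span ({x, y} : Set B) with hI
  have hx : x ∈ I := Ideal.subset_span (by simp)
  obtain ⟨u, hu⟩ := hψ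
  -- `π ≡ - u⁻¹ z^(q+1)` modulo `I`
  have hπ : π + ↑u⁻¹ * z ^ (q + 1) ∈ I := by
    have e : π + ↑u⁻¹ * z ^ (q + 1)
        = ↑u⁻¹ * ((x ^ q - z) * (x - z ^ q) + π * ψx)
          + x * (↑u⁻¹ * (z ^ q * x ^ (q - 1) + z - x ^ q)) := by
      have hux : (↑u⁻¹ : B) * ψx = 1 := by rw [← hu]; exact Units.inv_mul u
      have hxq : x ^ q = x * x ^ (q - 1) := by
        rw [← pow_succ']; congr 1; omega
      have e' : ↑u⁻¹ * ((x ^ q - z) * (x - z ^ q) + π * ψx)
          = ↑u⁻¹ * ((x ^ q - z) * (x - z ^ q)) + π * (↑u⁻¹ * ψx) := by ring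
      rw [e', hux, hxq]
      ring
    rw [e, h1, mul_zero, zero_add]
    exact Ideal.mul_mem_right _ _ hx
  -- `z ≡ π ψ'` modulo `I`
  have hzI : z - π * ψ' ∈ I := by
    have e := backtracking_identity h1 h2 h3 hxy
    have m1 : (∑ i ∈ range (q + 1), x ^ i * y ^ (q + 1 - 1 - i)) ∈ I :=
      geomSum_mem_span_pair x y (by omega)
    have m0 : (∑ i ∈ range q, x ^ i * y ^ (q - 1 - i)) ∈ I := geomSum_mem_span_pair x y hq
    have : z - π * ψ' = (∑ i ∈ range (q + 1), x ^ i * y ^ (q + 1 - 1 - i))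
        - z ^ q * (∑ i ∈ range q, x ^ i * y ^ (q - 1 - i)) := by
      linear_combination e
    rw [this]
    exact I.sub_mem m1 (Ideal.mul_mem_left _ _ m0)
  -- hence `z * (1 + u⁻¹ ψ' z^q) ∈ I`, and the second factor is a unit
  have hprod : z * (1 + ↑u⁻¹ * ψ' * z ^ q) ∈ I := by
    have : z * (1 + ↑u⁻¹ * ψ' * z ^ q)
        = (z - π * ψ') + ψ' * (π + ↑u⁻¹ * z ^ (q + 1)) := by ring
    rw [this]
    exact I.add_mem hzI (Ideal.mul_mem_left _ _ hπ)
  have hunit : IsUnit (1 + ↑u⁻¹ * ψ' * z ^ q) := by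
    have hmem : -(↑u⁻¹ * ψ' * z ^ q) ∈ IsLocalRing.maximalIdeal B := by
      refine neg_mem (Ideal.mul_mem_left _ _ ?_)
      have : z ^ q = z ^ (q - 1) * z := by rw [← pow_succ]; congr 1; omega
      rw [this]
      exact Ideal.mul_mem_left _ _ hz
    have := IsLocalRing.isUnit_one_sub_self_of_mem_nonunits _
      ((IsLocalRing.mem_maximalIdeal _).mp hmem)
    simpa using this
  have hzmem : z ∈ I := by
    obtain ⟨v, hv⟩ := hunit
    have : z = (z * (1 + ↑u⁻¹ * ψ' * z ^ q)) * ↑v⁻¹ := by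
      rw [← hv, mul_assoc, Units.mul_inv, mul_one]
    rw [this]
    exact Ideal.mul_mem_right _ _ hprod
  refine ⟨hzmem, ?_⟩
  have : π = (π + ↑u⁻¹ * z ^ (q + 1)) - ↑u⁻¹ * z ^ q * z := by ring
  rw [this]
  exact I.sub_mem hπ (Ideal.mul_mem_left _ _ hzmem)

/-- **Regularity from thickness one (polynomial form).**  `ψ : B[X]` (its coefficients may involve
`z`), `x ≠ y` roots of `(X^q - z)(X - z^q) + π ψ(X)`, `ψ(x)` a unit: then `z, π ∈ (x, y)`. -/
theorem mem_span_pair_of_thick_poly [IsDomain B] {q : ℕ} (hq : 2 ≤ q) {x y z π : B}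
    (ψ : Polynomial B)
    (h1 : (x ^ q - z) * (x - z ^ q) + π * ψ.eval x = 0)
    (h2 : (y ^ q - z) * (y - z ^ q) + π * ψ.eval y = 0) (hxy : x ≠ y)
    (hz : z ∈ IsLocalRing.maximalIdeal B) (hψ : IsUnit (ψ.eval x)) :
    z ∈ Ideal.span ({x, y} : Set B) ∧ π ∈ Ideal.span ({x, y} : Set B) := by
  obtain ⟨ψ', hψ'⟩ := Polynomial.sub_dvd_eval_sub x y ψ
  exact mem_span_pair_of_thick hq h1 h2 hψ' hxy hz hψ

/-- **The maximal ideal is generated by two elements**: if `𝔪 = (π, x, z, y)` and the hypotheses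
of `mem_span_pair_of_thick` hold, then `𝔪 = (x, y)`. -/
theorem maximalIdeal_eq_span_pair [IsDomain B] {q : ℕ} (hq : 2 ≤ q) {x y z π ψx ψy ψ' : B}
    (h1 : (x ^ q - z) * (x - z ^ q) + π * ψx = 0)
    (h2 : (y ^ q - z) * (y - z ^ q) + π * ψy = 0)
    (h3 : ψx - ψy = (x - y) * ψ') (hxy : x ≠ y) (hψ : IsUnit ψx)
    (hm : IsLocalRing.maximalIdeal B = Ideal.span ({π, x, z, y} : Set B)) :
    IsLocalRing.maximalIdeal B = Ideal.span ({x, y} : Set B) := by
  have hz : z ∈ IsLocalRing.maximalIdeal B := by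
    rw [hm]; exact Ideal.subset_span (by simp)
  obtain ⟨hzI, hπI⟩ := mem_span_pair_of_thick hq h1 h2 h3 hxy hz hψ
  refine le_antisymm ?_ ?_
  · rw [hm, Ideal.span_le]
    rintro w hw
    simp only [Set.mem_insert_iff, Set.mem_singleton_iff] at hw
    rcases hw with rfl | rfl | rfl | rfl
    · exact hπI
    · exact Ideal.subset_span (by simp)
    · exact hzI
    · exact Ideal.subset_span (by simp)
  · rw [hm]
    exact Ideal.span_mono (by
      intro w hw
      simp only [Set.mem_insert_iff, Set.mem_singleton_iff] at hw ⊢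
      rcases hw with rfl | rfl
      · exact Or.inr (Or.inl rfl)
      · exact Or.inr (Or.inr (Or.inr rfl)))

/-- **Level `q`: the node coordinates generate.**  With `s = x^q - z`, `t = x - z^q` and
`s t = - π ψ`, `ψ` a unit (thickness one), the ideal `(π, x, z)` equals `(s, t)`. -/
theorem span_node_coords {q : ℕ} (hq : 2 ≤ q) {x z π ψx : B}
    (h1 : (x ^ q - z) * (x - z ^ q) + π * ψx = 0) (hψ : IsUnit ψx)
    (hx : x ∈ IsLocalRing.maximalIdeal B) :
    Ideal.span ({π, x, z} : Set B) = Ideal.span ({x ^ q - z, x - z ^ q} : Set B) := by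
  set J : Ideal B := Ideal.span ({x ^ q - z, x - z ^ q} : Set B) with hJ
  have hs : x ^ q - z ∈ J := Ideal.subset_span (by simp)
  have ht : x - z ^ q ∈ J := Ideal.subset_span (by simp)
  obtain ⟨u, hu⟩ := hψ
  have hπ : π ∈ J := by
    have : π = -(↑u⁻¹ * ((x ^ q - z) * (x - z ^ q)))
        + ↑u⁻¹ * ((x ^ q - z) * (x - z ^ q) + π * ψx) := by
      have hux : (↑u⁻¹ : B) * ψx = 1 := by rw [← hu]; exact Units.inv_mul u
      have e' : ↑u⁻¹ * ((x ^ q - z) * (x - z ^ q) + π * ψx)
          = ↑u⁻¹ * ((x ^ q - z) * (x - z ^ q)) + π * (↑u⁻¹ * ψx) := by ring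
      rw [e', hux]; ring
    rw [this, h1, mul_zero, add_zero]
    exact neg_mem (Ideal.mul_mem_left _ _ (Ideal.mul_mem_right _ _ hs))
  -- `z ≡ x^q` and `x ≡ z^q ≡ x^(q²)` modulo `J`, so `x (1 - x^(q²-1)) ∈ J`
  have hzq : z ^ q - (x ^ q) ^ q ∈ J := by
    obtain ⟨c, hc⟩ := sub_dvd_pow_sub_pow z (x ^ q) q
    rw [hc]
    have : z - x ^ q = -(x ^ q - z) := by ring
    rw [this]
    exact Ideal.mul_mem_right _ _ (neg_mem hs)
  have hxx : x * (1 - x ^ (q * q - 1)) ∈ J := by
    have e : x * (1 - x ^ (q * q - 1)) = (x - z ^ q) + (z ^ q - (x ^ q) ^ q) := by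
      have : x * x ^ (q * q - 1) = (x ^ q) ^ q := by
        rw [← pow_succ', ← pow_mul]; congr 1
        have : 1 ≤ q * q := by nlinarith
        omega
      rw [mul_sub, mul_one, this]; ring
    rw [e]
    exact J.add_mem ht hzq
  have hunit : IsUnit (1 - x ^ (q * q - 1)) := by
    refine IsLocalRing.isUnit_one_sub_self_of_mem_nonunits _
      ((IsLocalRing.mem_maximalIdeal _).mp ?_)
    have : q * q - 1 = (q * q - 2) + 1 := by
      have : 4 ≤ q * q := by nlinarith
      omega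
    rw [this, pow_succ]
    exact Ideal.mul_mem_left _ _ hx
  have hxJ : x ∈ J := by
    obtain ⟨v, hv⟩ := hunit
    have : x = (x * (1 - x ^ (q * q - 1))) * ↑v⁻¹ := by
      rw [← hv, mul_assoc, Units.mul_inv, mul_one]
    rw [this]
    exact Ideal.mul_mem_right _ _ hxx
  have hzJ : z ∈ J := by
    have : z = x ^ q - (x ^ q - z) := by ring
    rw [this]
    refine J.sub_mem ?_ hs
    have : x ^ q = x ^ (q - 1) * x := by rw [← pow_succ]; congr 1; omega
    rw [this]
    exact Ideal.mul_mem_left _ _ hxJ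
  refine le_antisymm ?_ ?_
  · rw [Ideal.span_le]
    rintro w hw
    simp only [Set.mem_insert_iff, Set.mem_singleton_iff] at hw
    rcases hw with rfl | rfl | rfl
    · exact hπ
    · exact hxJ
    · exact hzJ
  · rw [hJ, Ideal.span_le]
    rintro w hw
    simp only [Set.mem_insert_iff, Set.mem_singleton_iff] at hw
    have hx' : x ∈ Ideal.span ({π, x, z} : Set B) := Ideal.subset_span (by simp)
    have hz' : z ∈ Ideal.span ({π, x, z} : Set B) := Ideal.subset_span (by simp)
    rcases hw with rfl | rfl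
    · refine Ideal.sub_mem _ ?_ hz'
      have : x ^ q = x ^ (q - 1) * x := by rw [← pow_succ]; congr 1; omega
      rw [this]; exact Ideal.mul_mem_left _ _ hx'
    · refine Ideal.sub_mem _ hx' ?_
      have : z ^ q = z ^ (q - 1) * z := by rw [← pow_succ]; congr 1; omega
      rw [this]; exact Ideal.mul_mem_left _ _ hz'

end Fermat.Agent.GL.Local.RegOfThick
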